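import Mathlib.RingTheory.DedekindDomain.IntegralClosure
import Mathlib.RingTheory.DedekindDomain.Dvr
import Mathlib.NumberTheory.Padics.RingHoms
import Mathlib.FieldTheory.IsAlgClosed.AlgebraicClosure
import Mathlib.FieldTheory.IntermediateField.Adjoin.Basic
import Mathlib.RingTheory.LocalRing.ResidueField.Basic
import Mathlib.Analysis.Complex.Basic
import Fermat.Prelude.Thm_IsLocalRing_isAdicComplete_of_module_finite
import Fermat.Prelude.Thm_Algebra_finite_maximalSpectrum_and_bijective_localization_of_module_finite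

/-!
# A `p`-adic coefficient ring for a ring of algebraic integers

A subring of `ℂ` finite over `ℤ` maps into a discrete valuation ring finite over `ℤ_p`
(`exists_coefficientRing`). Used by `Match` and `LocalThree.Place`.
-/

set_option autoImplicit false

noncomputable section

namespace FLTAgent.ConductorMatch

variable (p : ℕ) [Fact p.Prime]

/-- A finite domain over `ℤ_p` has a single maximal ideal. -/
theorem isLocalRing_of_finite (O : Type) [CommRing O] [IsDomain O] [Algebra ℤ_[p] O]
    [Module.Finite ℤ_[p] O] : IsLocalRing O := by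
  obtain ⟨-, hbij, -, -⟩ :=
    Algebra.finite_maximalSpectrum_and_bijective_localization_of_module_finite (𝒪 := ℤ_[p]) O
  obtain ⟨m, hm⟩ := Ideal.exists_maximal O
  refine IsLocalRing.of_unique_max_ideal ⟨m, hm, fun m' hm' => ?_⟩
  by_contra hne
  classical
  let I : MaximalSpectrum O := ⟨m, hm⟩
  let I' : MaximalSpectrum O := ⟨m', hm'⟩
  have hII : I' ≠ I := fun e => hne (congrArg MaximalSpectrum.asIdeal e)
  obtain ⟨e, he⟩ := hbij.2 (Pi.single I 1)
  obtain ⟨e', he'⟩ := hbij.2 (Pi.single I' 1)
  have h0 : e * e' = 0 := hbij.1 (by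
    rw [map_mul, he, he', map_zero]
    funext J
    rw [Pi.mul_apply, Pi.zero_apply]
    rcases eq_or_ne J I with rfl | hJ
    · rw [Pi.single_eq_of_ne hII.symm, mul_zero]
    · rw [Pi.single_eq_of_ne hJ, zero_mul])
  rcases mul_eq_zero.mp h0 with h | h
  · rw [h, map_zero] at he
    have := congrFun he I
    rw [Pi.zero_apply, Pi.single_eq_same] at this
    exact zero_ne_one this
  · rw [h, map_zero] at he'
    have := congrFun he' I'
    rw [Pi.zero_apply, Pi.single_eq_same] at this
    exact zero_ne_one this

/-- An order of algebraic integers embeds in a finite extension of `ℤ_p`. -/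
theorem exists_coefficientRing (R₀ : Subring ℂ) [Module.Finite ℤ R₀] :
    ∃ (O : Type) (_ : CommRing O) (_ : IsDomain O) (_ : IsDiscreteValuationRing O)
      (_ : IsAdicComplete (IsLocalRing.maximalIdeal O) O)
      (_ : Finite (IsLocalRing.ResidueField O)) (_ : CharZero O),
      (p : O) ∈ IsLocalRing.maximalIdeal O ∧
        ∃ ι : R₀ →+* O, Function.Injective ι := by
  classical
  have hint : ∀ x : R₀, IsIntegral ℤ x := IsIntegral.of_finite ℤ
  let K₀ := IntermediateField.adjoin ℚ (R₀ : Set ℂ)
  have : Algebra.IsAlgebraic ℚ K₀ := IntermediateField.isAlgebraic_adjoin fun x hx =>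
    ((hint ⟨x, hx⟩).map R₀.subtype.toIntAlgHom).tower_top
  let Qp' := AlgebraicClosure ℚ_[p]
  let φ : K₀ →ₐ[ℚ] Qp' := IsAlgClosed.lift
  let j : R₀ →+* Qp' := φ.toRingHom.comp
    (R₀.subtype.codRestrict K₀ fun x => IntermediateField.subset_adjoin ℚ _ x.2)
  have hj : Function.Injective j := φ.toRingHom.injective.comp fun a b h =>
    Subtype.ext (congrArg (fun z : K₀ => (z : ℂ)) h)
  obtain ⟨s, hs⟩ := Module.Finite.fg_top (R := ℤ) (M := R₀)
  let E : IntermediateField ℚ_[p] Qp' := IntermediateField.adjoin ℚ_[p] (j '' (s : Set R₀))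
  have : FiniteDimensional ℚ_[p] E :=
    have := (s.finite_toSet.image j).to_subtype
    IntermediateField.finiteDimensional_adjoin fun z _ => Algebra.IsIntegral.isIntegral z
  have hE : ∀ x, j x ∈ E := fun x => by
    have hx : x ∈ Submodule.span ℤ (s : Set R₀) := hs ▸ Submodule.mem_top
    induction hx using Submodule.span_induction with
    | mem y hy => exact IntermediateField.subset_adjoin _ _ ⟨y, hy, rfl⟩
    | zero => rw [map_zero]; exact zero_mem _
    | add _ _ _ _ ha hb => rw [map_add]; exact add_mem ha hb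
    | smul a _ _ ha => rw [map_zsmul]; exact zsmul_mem ha a
  let O := integralClosure ℤ_[p] E
  have : IsDedekindDomain O := IsIntegralClosure.isDedekindDomain ℤ_[p] ℚ_[p] E O
  have : Module.Finite ℤ_[p] O := IsIntegralClosure.finite ℤ_[p] ℚ_[p] E O
  have : CharZero E := charZero_of_injective_algebraMap (algebraMap ℚ_[p] E).injective
  have : CharZero O := charZero_of_injective_ringHom
    (f := (Int.castRingHom O)) (fun a b h => Int.cast_injective (α := E) (by
      simpa using congrArg O.val h))
  have : IsLocalRing O := isLocalRing_of_finite p O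
  have hpO : ((p : O)) ∈ IsLocalRing.maximalIdeal O := by
    rw [IsLocalRing.mem_maximalIdeal, mem_nonunits_iff]
    intro hu
    have hinj : Function.Injective (algebraMap ℤ_[p] O) := fun a b h => by
      have := congrArg O.val h
      simp only [AlgHom.commutes] at this
      rw [IsScalarTower.algebraMap_apply ℤ_[p] ℚ_[p] E, IsScalarTower.algebraMap_apply ℤ_[p]
        ℚ_[p] E] at this
      exact IsFractionRing.injective ℤ_[p] ℚ_[p] ((algebraMap ℚ_[p] E).injective this)
    have hnu : ¬ IsUnit (p : ℤ_[p]) := PadicInt.prime_p.not_isUnit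
    rw [← map_natCast (algebraMap ℤ_[p] O)] at hu
    exact hnu (((algebraMap_isIntegral_iff.mpr inferInstance).isLocalHom hinj).map_nonunit _ hu)
  have hpne : (p : O) ≠ 0 := Nat.cast_ne_zero.mpr (Fact.out : p.Prime).ne_zero
  have hnf : IsLocalRing.maximalIdeal O ≠ ⊥ := fun h => hpne (by simpa [h] using hpO)
  have : IsDiscreteValuationRing O :=
    ((IsDiscreteValuationRing.TFAE O fun hf => hnf
      (IsLocalRing.isField_iff_maximalIdeal_eq.mp hf)).out 0 2).mpr ‹IsDedekindDomain O›
  have : IsLocalHom (algebraMap ℤ_[p] O) := ⟨fun a ha => by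
    by_contra hna
    rw [← mem_nonunits_iff, ← IsLocalRing.mem_maximalIdeal, PadicInt.maximalIdeal_eq_span_p,
      Ideal.mem_span_singleton] at hna
    obtain ⟨b, rfl⟩ := hna
    rw [map_mul, map_natCast] at ha
    exact (IsLocalRing.mem_maximalIdeal _).mp hpO (isUnit_of_mul_isUnit_left ha)⟩
  have : IsAdicComplete (IsLocalRing.maximalIdeal O) O :=
    IsLocalRing.isAdicComplete_of_module_finite (𝒪 := ℤ_[p])
  have : Finite (IsLocalRing.ResidueField ℤ_[p]) :=
    Finite.of_equiv _ (PadicInt.residueField).symm.toEquiv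
  have : Finite (IsLocalRing.ResidueField O) :=
    Module.finite_of_finite (IsLocalRing.ResidueField ℤ_[p])
  let ι : R₀ →+* O :=
    ((j.codRestrict E hE).codRestrict O.toSubring fun x => ((hint x).map
      (j.codRestrict E hE).toIntAlgHom).tower_top)
  exact ⟨O, inferInstance, inferInstance, inferInstance, inferInstance, inferInstance,
    inferInstance, hpO, ι, fun a b h => hj (congrArg (fun z : O => ((z : E) : Qp')) h)⟩

end FLTAgent.ConductorMatch
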