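import Fermat.Prelude.Def_FLTPrelim_Modularity
import Mathlib.Algebra.Polynomial.Roots
import Mathlib.Algebra.Field.ZMod

/-!
# The trivial bound on `a_q`

Counting points gives `|a_q| ≤ q` (`abs_traceOfFrobenius_le`), so `a_q ≠ ±(q + 1)`; this separates
the Steinberg case from the good one in `Match`.
-/

set_option autoImplicit false

noncomputable section

open Polynomial WeierstrassCurve

namespace FLTAgent.ConductorMatch

theorem abs_traceOfFrobenius_le {F : Type} [Field F] [Finite F] (E : WeierstrassCurve F) :
    |E.traceOfFrobenius| ≤ Nat.card F := by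
  classical
  have := Fintype.ofFinite F
  let T : Finset (F × F) := Finset.univ.filter fun z => E.toAffine.Equation z.1 z.2
  have hT : T.card ≤ 2 * Fintype.card F := by
    refine Finset.card_le_mul_card_image_of_maps_to (f := Prod.fst) (t := Finset.univ)
      (fun _ _ => Finset.mem_univ _) 2 fun x _ => ?_
    let P : F[X] := X ^ 2 + C (E.a₁ * x + E.a₃) * X -
      C (x ^ 3 + E.a₂ * x ^ 2 + E.a₄ * x + E.a₆)
    have hdeg : P.natDegree ≤ 2 := by
      simp only [P]; compute_degree
    have hP : P ≠ 0 := fun h => by
      have := congrArg (fun Q : F[X] => Q.coeff 2) h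
      simp [P, -map_add, -map_mul, -map_pow] at this
    have hsub : ({z ∈ T | z.1 = x}).image Prod.snd ⊆ P.roots.toFinset := by
      intro y hy
      obtain ⟨⟨x', y'⟩, hz, rfl⟩ := Finset.mem_image.mp hy
      simp only [T, Finset.mem_filter, Finset.mem_univ, true_and] at hz
      obtain ⟨he, rfl⟩ := hz
      rw [WeierstrassCurve.Affine.equation_iff] at he
      rw [Multiset.mem_toFinset, mem_roots hP, IsRoot]
      simp only [P, eval_sub, eval_add, eval_mul, eval_pow, eval_X, eval_C]
      linear_combination he
    calc ({z ∈ T | z.1 = x}).card = (({z ∈ T | z.1 = x}).image Prod.snd).card :=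
          (Finset.card_image_of_injOn fun a ha b hb e => Prod.ext
            ((Finset.mem_filter.mp ha).2.trans (Finset.mem_filter.mp hb).2.symm) e).symm
      _ ≤ P.roots.toFinset.card := Finset.card_le_card hsub
      _ ≤ P.natDegree := (Multiset.toFinset_card_le _).trans (card_roots' P)
      _ ≤ 2 := hdeg
  let g : E.toAffine.Point → Option {z // z ∈ T} := fun P => match P with
    | .zero => none
    | .some x y h => some ⟨(x, y), Finset.mem_filter.mpr ⟨Finset.mem_univ _, h.1⟩⟩
  have hg : Function.Injective g := by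
    rintro (_ | ⟨x, y, h⟩) (_ | ⟨x', y', h'⟩) e <;> simp [g] at e ⊢
    exact e
  have h1 : E.card ≤ 1 + 2 * Fintype.card F := by
    refine (Nat.card_le_card_of_injective g hg).trans ?_
    rw [Finite.card_option, Nat.card_eq_finsetCard]
    omega
  have : Nonempty E.toAffine.Point := ⟨0⟩
  have h2 : 0 < E.card := Nat.card_pos
  rw [WeierstrassCurve.traceOfFrobenius, abs_le, Nat.card_eq_fintype_card (α := F)]
  omega

/-- `a_q` is never `± (q + 1)`. -/
theorem apOfModel_ne (W : WeierstrassCurve ℤ) {q : ℕ} (hq : q.Prime) :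
    W.apOfModel q ≠ q + 1 ∧ W.apOfModel q ≠ -((q : ℤ) + 1) := by
  have : Fact q.Prime := ⟨hq⟩
  have h := abs_le.mp (abs_traceOfFrobenius_le (W.reductionMod q))
  rw [Nat.card_zmod] at h
  constructor <;> intro e <;> rw [WeierstrassCurve.apOfModel] at e <;> omega

end FLTAgent.ConductorMatch
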