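import Fermat.Agent.ConductorMatch.Attached
import Fermat.Agent.ConductorMatch.Coefficient
import Fermat.Agent.ConductorMatch.PointCount
import Fermat.Agent.Newforms.Occurrence
import Fermat.Agent.Eigenforms.Character
import Fermat.Agent.Eigenforms.Oldforms
import Fermat.Agent.MFIntegral.IntegralStructure
import Fermat.Prelude.Def_CuspForm_HeckeGaloisRepDatum
import Fermat.Prelude.Def_CuspForm_Newforms
import Fermat.Prelude.Def_GaloisRep_LocalConditions
import Fermat.Prelude.Def_WeierstrassCurve_ConductorLevel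

/-!
# Conductor–level matching for semistable curves

Given the local properties `SteinbergInput` and `CarayolInput` (the statements S35 and S36) of
representations of newforms: a semistable curve with irreducible mod `p` representation, modular
of a cube-free level `N` with `p² ∤ N`, is modular of its conductor level
(`conductor_level_of_inputs`). Used by level lowering and
`CarayolSquare.Main`.
-/

set_option autoImplicit false

noncomputable section

open Polynomial WeierstrassCurve WeierstrassCurve.Affine WeierstrassCurve.Affine.Point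
open scoped WeierstrassCurve.Affine

namespace FLTAgent.ConductorMatch

open FLTAgent.Density FLTAgent.DefRing FLTAgent.GaloisAttach

/-- The statement of S35. -/
def SteinbergInput : Prop :=
  ∀ {M : ℕ} [NeZero M] {g : CuspForm (CongruenceSubgroup.Gamma0 M) 2} (_hg : g.IsNewform)
    (lam : ℕ) [Fact lam.Prime]
    (S : Finset ℕ)
    (O' : Type) [CommRing O'] [IsDomain O'] [IsDiscreteValuationRing O']
    [IsAdicComplete (IsLocalRing.maximalIdeal O') O'] [Finite (IsLocalRing.ResidueField O')]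
    [CharZero O'] (_hlamO' : (lam : O') ∈ IsLocalRing.maximalIdeal O')
    (chig : CuspForm.heckeAlgebra M 2 (↑S : Set ℕ) →+* ℂ)
    (_hchig : ∀ (ℓ : ℕ) (hℓ : ℓ.Prime) (hℓM : ¬ ℓ ∣ M) (hℓS : ℓ ∉ (↑S : Set ℕ)),
      chig (CuspForm.heckeAlgebra.T hℓ hℓM hℓS) = ModularFormClass.qCoeff g ℓ)
    (iota : chig.range →+* O')
    (_hlamS : lam ∈ S) (_hMS : ∀ q : ℕ, q.Prime → q ∣ M → q ∈ S),
    ∃ (O'' : Type) (_ : CommRing O'') (_ : IsDomain O'') (_ : IsDiscreteValuationRing O'')
      (_ : IsAdicComplete (IsLocalRing.maximalIdeal O'') O'')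
      (_ : Finite (IsLocalRing.ResidueField O''))
      (_ : CharZero O'') (_ : Algebra O' O'') (_ : Module.Finite O' O'')
      (_ : IsLocalHom (algebraMap O' O'')),
      Function.Injective (algebraMap O' O'') ∧
      ∃ ρ : GaloisRepAdic O'',
        (∀ (ℓ : ℕ) (hℓ : ℓ.Prime) (hℓM : ¬ ℓ ∣ M) (hℓS : ℓ ∉ (↑S : Set ℕ)),
          ∀ A : ValuationSubring (AlgebraicClosure ℚ), A.LiesOverPrime ℓ →
            ∀ σ : AlgebraicClosure ℚ ≃ₐ[ℚ] AlgebraicClosure ℚ, A.IsFrobeniusAt σ ℓ →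
              LinearMap.charpoly (ρ.ρ σ) =
                X ^ 2 - C (algebraMap O' O'' ((iota.comp chig.rangeRestrict)
                    (CuspForm.heckeAlgebra.T hℓ hℓM hℓS))) * X
                  + C ((ℓ : O''))) ∧
        (∀ q : ℕ, q.Prime → q ≠ lam → q ∣ M → ¬ q ^ 2 ∣ M →
          ∀ A : ValuationSubring (AlgebraicClosure ℚ), A.LiesOverPrime q →
            ∀ σ : AlgebraicClosure ℚ ≃ₐ[ℚ] AlgebraicClosure ℚ, A.IsFrobeniusAt σ q →
              LinearMap.charpoly (ρ.ρ σ) = X ^ 2 - C ((q : O'') + 1) * X + C ((q : O'')) ∨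
              LinearMap.charpoly (ρ.ρ σ) = X ^ 2 + C ((q : O'') + 1) * X + C ((q : O'')))

/-- The statement of S36. -/
def CarayolInput : Prop :=
  ∀ {M : ℕ} [NeZero M] {g : CuspForm (CongruenceSubgroup.Gamma0 M) 2} (_hg : g.IsNewform)
    (lam : ℕ) [Fact lam.Prime]
    (S : Finset ℕ)
    (O' : Type) [CommRing O'] [IsDomain O'] [IsDiscreteValuationRing O']
    [IsAdicComplete (IsLocalRing.maximalIdeal O') O'] [Finite (IsLocalRing.ResidueField O')]
    [CharZero O'] (_hlamO' : (lam : O') ∈ IsLocalRing.maximalIdeal O')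
    (_hlam2 : lam ≠ 2)
    (chig : CuspForm.heckeAlgebra M 2 (↑S : Set ℕ) →+* ℂ)
    (_hchig : ∀ (ℓ : ℕ) (hℓ : ℓ.Prime) (hℓM : ¬ ℓ ∣ M) (hℓS : ℓ ∉ (↑S : Set ℕ)),
      chig (CuspForm.heckeAlgebra.T hℓ hℓM hℓS) = ModularFormClass.qCoeff g ℓ)
    (iota : chig.range →+* O')
    (_hlamS : lam ∈ S) (_hMS : ∀ q : ℕ, q.Prime → q ∣ M → q ∈ S)
    (_hres : ∀ (O'' : Type) [CommRing O''] [IsDomain O''] [IsDiscreteValuationRing O'']
      [IsAdicComplete (IsLocalRing.maximalIdeal O'') O''] [Finite (IsLocalRing.ResidueField O'')]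
      [CharZero O'']
      [Algebra O' O''] [Module.Finite O' O''] [IsLocalHom (algebraMap O' O'')],
      Function.Injective (algebraMap O' O'') → ∀ (ρ : GaloisRepAdic O''),
      (∀ (ℓ : ℕ) (hℓ : ℓ.Prime) (_hℓlam : ℓ ≠ lam) (hℓM : ¬ ℓ ∣ M) (hℓS : ℓ ∉ (↑S : Set ℕ)),
        ∀ A : ValuationSubring (AlgebraicClosure ℚ), A.LiesOverPrime ℓ →
          ∀ σ : AlgebraicClosure ℚ ≃ₐ[ℚ] AlgebraicClosure ℚ, A.IsFrobeniusAt σ ℓ →
            LinearMap.charpoly (ρ.ρ σ) =
              X ^ 2 - C (algebraMap O' O'' ((iota.comp chig.rangeRestrict)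
                  (CuspForm.heckeAlgebra.T hℓ hℓM hℓS))) * X
                + C ((ℓ : O'')))
      → ρ.residual.IsAbsolutelyIrreducible ∧ ρ.residual.IsOdd),
    ∃ (O'' : Type) (_ : CommRing O'') (_ : IsDomain O'') (_ : IsDiscreteValuationRing O'')
      (_ : IsAdicComplete (IsLocalRing.maximalIdeal O'') O'')
      (_ : Finite (IsLocalRing.ResidueField O''))
      (_ : CharZero O'') (_ : Algebra O' O'') (_ : Module.Finite O' O'')
      (_ : IsLocalHom (algebraMap O' O'')),
      Function.Injective (algebraMap O' O'') ∧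
      ∃ ρ : GaloisRepAdic O'',
        (∀ (ℓ : ℕ) (hℓ : ℓ.Prime) (hℓM : ¬ ℓ ∣ M) (hℓS : ℓ ∉ (↑S : Set ℕ)),
          ∀ A : ValuationSubring (AlgebraicClosure ℚ), A.LiesOverPrime ℓ →
            ∀ σ : AlgebraicClosure ℚ ≃ₐ[ℚ] AlgebraicClosure ℚ, A.IsFrobeniusAt σ ℓ →
              LinearMap.charpoly (ρ.ρ σ) =
                X ^ 2 - C (algebraMap O' O'' ((iota.comp chig.rangeRestrict)
                    (CuspForm.heckeAlgebra.T hℓ hℓM hℓS))) * X
                  + C ((ℓ : O''))) ∧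
        (∀ q : ℕ, q.Prime → q ≠ lam → M.factorization q = 2 → ¬ ρ.IsUnipotentOnInertiaAt q)

section Residual

variable {p : ℕ} [hp : Fact p.Prime] {W : WeierstrassCurve ℤ}

theorem exists_no_eigenvector (hΔ : W.Δ ≠ 0) (hirr : W.ModRepIsIrreducible p)
    (v : Fin 2 → ZMod (p ^ 1)) (hv : v ≠ 0) :
    ∃ σ : GalQ, ∀ a : ZMod (p ^ 1), (levelRep p W hΔ 1 σ).mulVec v ≠ a • v := by
  have : Fact (p ^ 1).Prime := ⟨by rw [pow_one]; exact hp.out⟩
  by_contra hc
  push Not at hc
  set b := tateBasis p W hΔ 1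
  set z := b.equivFun.symm v
  have hz : z ≠ 0 := fun h => hv (b.equivFun.symm.injective (h.trans (_root_.map_zero _).symm))
  have hirr' : W.ModRepIsIrreducible (p ^ 1) := by rwa [pow_one]
  rcases hirr'.2 (Submodule.span (ZMod (p ^ 1)) {z}) (fun σ x hx => by
    obtain ⟨c, rfl⟩ := Submodule.mem_span_singleton.mp hx
    obtain ⟨a, ha⟩ := hc σ
    refine Submodule.mem_span_singleton.mpr ⟨c * a, ?_⟩
    have hz' : galoisRepModuleEnd ℚ (EQ W) (p ^ 1) σ z = a • z := by
      apply b.equivFun.injective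
      have e : b.equivFun z = v := b.equivFun.apply_symm_apply v
      rw [map_smul, e, ← ha, levelRep_apply]
      rw [← e]
      exact (LinearMap.toMatrix_mulVec_repr b b _ z).symm
    rw [← galoisRepModuleEnd_apply, map_smul, mul_smul]
    exact congrArg (c • ·) hz'.symm) with h | h
  · exact hz (Submodule.span_singleton_eq_bot.mp h)
  · have h1 := finrank_span_singleton (K := ZMod (p ^ 1)) hz
    rw [h, finrank_top, Module.finrank_eq_card_basis b, Fintype.card_fin] at h1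
    exact absurd h1 (by norm_num)

variable {O : Type} [CommRing O] [IsLocalRing O] [IsAdicComplete (IsLocalRing.maximalIdeal O) O]

theorem residual_isAbsolutelyIrreducible_and_isOdd (hp2 : p ≠ 2) (hΔ : W.Δ ≠ 0)
    (hirr : W.ModRepIsIrreducible p) (hpO : (p : O) ∈ IsLocalRing.maximalIdeal O)
    (ρ : GaloisRepAdic O)
    (h : ∀ σ : GalQ, LinearMap.trace O ρ.V (ρ.ρ σ) = padicTo hpO (tateRep p W hΔ σ).trace ∧
      LinearMap.det (ρ.ρ σ) = padicTo hpO (tateRep p W hΔ σ).det) :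
    ρ.residual.IsAbsolutelyIrreducible ∧ ρ.residual.IsOdd := by
  let k := IsLocalRing.ResidueField O
  have hpk : (p : k) = 0 := by
    rw [← map_natCast (IsLocalRing.residue O), IsLocalRing.residue_eq_zero_iff]; exact hpO
  have : CharP k p := (CharP.charP_iff_prime_eq_zero hp.out).mpr hpk
  have : Fact (p ^ 1).Prime := ⟨by rw [pow_one]; exact hp.out⟩
  let j : ZMod (p ^ 1) →+* k := ZMod.castHom (dvd_of_eq (pow_one p).symm) k
  have hres : ∀ z : ℤ_[p], IsLocalRing.residue O (padicTo hpO z) = j (PadicInt.toZModPow 1 z) := by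
    intro z
    have h1 := padicTo_sub_mem hpO 1 z
    rw [pow_one, ← IsLocalRing.residue_eq_zero_iff, map_sub, sub_eq_zero, map_natCast] at h1
    rw [h1]
    exact (ZMod.natCast_val _).trans (ZMod.castHom_apply _).symm
  have htr : ∀ σ, LinearMap.trace k ρ.residual.V (ρ.residual.ρ σ) =
      j (levelRep p W hΔ 1 σ).trace := fun σ => by
    refine (LinearMap.trace_baseChange (ρ.ρ σ) k).trans ?_
    rw [(h σ).1]
    refine (hres _).trans (congrArg j ?_)
    rw [← map_tateRep, Matrix.trace, map_sum]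
    rfl
  have hdet : ∀ σ, LinearMap.det (ρ.residual.ρ σ) = j (levelRep p W hΔ 1 σ).det := fun σ => by
    refine (LinearMap.det_baseChange (A := k) (ρ.ρ σ)).trans ?_
    rw [(h σ).2]
    refine (hres _).trans (congrArg j ?_)
    rw [← map_tateRep, RingHom.map_det]
    rfl
  have hodd : ∀ c : GalQ, c * c = 1 → c ≠ 1 → (levelRep p W hΔ 1 c).det = -1 := fun c hc hne => by
    rw [← map_tateRep, ← RingHom.mapMatrix_apply, ← RingHom.map_det, det_tateRep,
      cyc_involution hc hne hp2, map_neg, _root_.map_one]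
  refine ⟨?_, fun c hc hne => by rw [hdet, hodd c hc hne, map_neg, _root_.map_one]⟩
  have h2 : (2 : ZMod (p ^ 1)) ≠ 0 := by
    intro h
    have h' : ((2 : ℕ) : ZMod (p ^ 1)) = 0 := by exact_mod_cast h
    rw [CharP.cast_eq_zero_iff (ZMod (p ^ 1)) (p ^ 1), pow_one, Nat.prime_dvd_prime_iff_eq hp.out
      Nat.prime_two] at h'
    exact hp2 h'
  refine isAbsolutelyIrreducible_of_trace_det h2 ρ.residual (levelRep p W hΔ 1) j htr hdet
    complexConjugation_mul_self (hodd _ complexConjugation_mul_self fun e => ?_)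
    fun v hv => exists_no_eigenvector hΔ hirr v hv
  have hcc := cyc_complexConjugation (p := p)
  rw [e, _root_.map_one] at hcc
  exact two_ne_zero (α := ℤ_[p]) (by linear_combination hcc)

end Residual

/-- Conductor–level matching, given S35 and S36. -/
theorem conductor_level_of_inputs (h35 : SteinbergInput) (h36 : CarayolInput)
    (W : WeierstrassCurve ℤ) (hss : W.IsSemistableModel) (N : ℕ)
    (p : ℕ) [Fact p.Prime] (hp2 : p ≠ 2) (hirr : W.ModRepIsIrreducible p)
    (hp2N : ¬ p ^ 2 ∣ N)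
    (hN : W.IsModularModelOfLevel N) (hbad : ∀ ℓ : ℕ, ℓ.Prime → (ℓ : ℤ) ∣ W.Δ → ℓ ∣ N)
    (hN3 : ∀ q : ℕ, q.Prime → ¬ q ^ 3 ∣ N) :
    W.IsModularModelOfLevel W.conductorLevel := by
  classical
  have hN0 : N ≠ 0 := by rintro rfl; exact hp2N (dvd_zero _)
  have : NeZero N := ⟨hN0⟩
  have hΔ : W.Δ ≠ 0 := by
    intro h0
    obtain ⟨ℓ, hℓ, hℓp⟩ := Nat.exists_infinite_primes (N + 1)
    exact absurd (Nat.le_of_dvd (Nat.pos_of_ne_zero hN0) (hbad ℓ hℓp (h0 ▸ dvd_zero _))) (by omega)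
  obtain ⟨f, hf, hfap⟩ := hN
  obtain ⟨M, hM, g, hMN, hg, hgf⟩ := FLTAgent.Newforms.exists_newform_of_eigenform hf
  -- the representations attached to `g` at an auxiliary prime
  have setup : ∀ lam : ℕ, lam.Prime →
      ∃ (S : Finset ℕ) (O' : Type) (_ : CommRing O') (_ : IsDomain O')
      (_ : IsDiscreteValuationRing O') (_ : IsAdicComplete (IsLocalRing.maximalIdeal O') O')
      (_ : Finite (IsLocalRing.ResidueField O')) (_ : CharZero O')
      (_ : (lam : O') ∈ IsLocalRing.maximalIdeal O')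
      (chig : CuspForm.heckeAlgebra M 2 (↑S : Set ℕ) →+* ℂ) (iota : chig.range →+* O'),
      Function.Injective iota ∧ lam ∈ S ∧ (∀ q : ℕ, q.Prime → q ∣ M → q ∈ S) ∧
      (∀ ℓ : ℕ, ℓ ∈ S → ℓ = lam ∨ ℓ ∣ M) ∧
      (∀ (ℓ : ℕ) (hℓ : ℓ.Prime) (hℓM : ¬ ℓ ∣ M) (hℓS : ℓ ∉ (↑S : Set ℕ)),
        chig (CuspForm.heckeAlgebra.T hℓ hℓM hℓS) = ModularFormClass.qCoeff g ℓ) := by
    intro lam hlam
    have : Fact lam.Prime := ⟨hlam⟩
    let S : Finset ℕ := insert lam M.primeFactors
    let chig : CuspForm.heckeAlgebra M 2 (↑S : Set ℕ) →+* ℂ :=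
      FLTAgent.Eigenforms.eigenChar hg.isNormalizedEigenform
    have := FLTAgent.MFIntegral.moduleFinite_heckeAlgebra M 2 (↑S : Set ℕ)
    have : Module.Finite ℤ chig.range :=
      Module.Finite.of_surjective chig.rangeRestrict.toIntAlgHom.toLinearMap
        chig.rangeRestrict_surjective
    obtain ⟨O', i1, i2, i3, i4, i5, i6, hlamO, iota, hiota⟩ := exists_coefficientRing lam chig.range
    exact ⟨S, O', i1, i2, i3, i4, i5, i6, hlamO, chig, iota, hiota, Finset.mem_insert_self _ _,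
      fun q hq hqM => Finset.mem_insert_of_mem
        (Nat.mem_primeFactors.mpr ⟨hq, hqM, NeZero.ne M⟩),
      fun ℓ hℓ => (Finset.mem_insert.mp hℓ).imp_right fun h => (Nat.mem_primeFactors.mp h).2.1,
      fun ℓ hℓ hℓM hℓS => FLTAgent.Eigenforms.eigenChar_T hg.isNormalizedEigenform hℓ hℓM hℓS⟩
  -- almost all Frobenius traces agree with those of the curve
  have coeff : ∀ {S : Finset ℕ} {O' O'' : Type} [CommRing O'] [CommRing O''] [Algebra O' O'']
      {chig : CuspForm.heckeAlgebra M 2 (↑S : Set ℕ) →+* ℂ} (iota : chig.range →+* O')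
      (_ : ∀ (ℓ : ℕ) (hℓ : ℓ.Prime) (hℓM : ¬ ℓ ∣ M) (hℓS : ℓ ∉ (↑S : Set ℕ)),
        chig (CuspForm.heckeAlgebra.T hℓ hℓM hℓS) = ModularFormClass.qCoeff g ℓ)
      (ℓ : ℕ) (hℓ : ℓ.Prime) (hℓM : ¬ ℓ ∣ M) (hℓS : ℓ ∉ (↑S : Set ℕ)) (_ : ¬ ℓ ∣ N),
      algebraMap O' O'' ((iota.comp chig.rangeRestrict) (CuspForm.heckeAlgebra.T hℓ hℓM hℓS)) =
        (W.apOfModel ℓ : O'') := by
    intro S O' O'' _ _ _ chig iota hchig ℓ hℓ hℓM hℓS hℓN
    have hgood : W.IsGoodPrimeFor ℓ := fun hd => hℓN (hbad ℓ hℓ hd)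
    have e : chig.rangeRestrict (CuspForm.heckeAlgebra.T hℓ hℓM hℓS) =
        ((W.apOfModel ℓ : ℤ) : chig.range) := Subtype.ext (by
      rw [RingHom.coe_rangeRestrict, hchig, hgf ℓ hℓ hℓN, hfap ℓ hℓ hgood hℓN]
      simp)
    rw [RingHom.comp_apply, e, map_intCast, map_intCast]
  -- no prime square divides `M`
  have hsq : ∀ q : ℕ, q.Prime → ¬ q ^ 2 ∣ M := by
    intro q hq hq2
    have hqp : q ≠ p := fun e => hp2N (e ▸ hq2.trans hMN)
    obtain ⟨S, O', _, _, _, _, _, _, hlamO, chig, iota, -, hlamS, hMS, -, hchig⟩ :=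
      setup p (Fact.out : p.Prime)
    have attached : ∀ (O'' : Type) [CommRing O''] [IsLocalRing O'']
        [IsAdicComplete (IsLocalRing.maximalIdeal O'') O''] [Algebra O' O'']
        (hpO : (p : O'') ∈ IsLocalRing.maximalIdeal O'') (ρ : GaloisRepAdic O''),
        (∀ (ℓ : ℕ) (hℓ : ℓ.Prime) (_ : ℓ ≠ p) (hℓM : ¬ ℓ ∣ M) (hℓS : ℓ ∉ (↑S : Set ℕ)),
          ∀ A : ValuationSubring Qbar, A.LiesOverPrime ℓ → ∀ σ : GalQ, A.IsFrobeniusAt σ ℓ →
            LinearMap.charpoly (ρ.ρ σ) =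
              X ^ 2 - C (algebraMap O' O'' ((iota.comp chig.rangeRestrict)
                (CuspForm.heckeAlgebra.T hℓ hℓM hℓS))) * X + C ((ℓ : O''))) →
        ∀ σ : GalQ, LinearMap.trace O'' ρ.V (ρ.ρ σ) = padicTo hpO (tateRep p W hΔ σ).trace ∧
          LinearMap.det (ρ.ρ σ) = padicTo hpO (tateRep p W hΔ σ).det := by
      intro O'' _ _ _ _ hpO ρ hρ
      refine trace_det_eq_of_attached hpO ρ hΔ (S ∪ N.primeFactors) fun ℓ hℓ hℓS A hA σ hσ => ?_
      simp only [Finset.mem_union, Nat.mem_primeFactors, not_or] at hℓS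
      obtain ⟨h1, h2⟩ := hℓS
      have hℓN : ¬ ℓ ∣ N := fun h => h2 ⟨hℓ, h, hN0⟩
      have hℓM : ¬ ℓ ∣ M := fun h => hℓN (h.trans hMN)
      have hℓS' : ℓ ∉ (↑S : Set ℕ) := fun h => h1 (Finset.mem_coe.mp h)
      rw [hρ ℓ hℓ (fun e => h1 (e ▸ hlamS)) hℓM hℓS' A hA σ hσ,
        coeff iota hchig ℓ hℓ hℓM hℓS' hℓN]
    have hmem : ∀ (O'' : Type) [CommRing O''] [IsLocalRing O''] [Algebra O' O'']
        [IsLocalHom (algebraMap O' O'')], (p : O'') ∈ IsLocalRing.maximalIdeal O'' := by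
      intro O'' _ _ _ _
      rw [← map_natCast (algebraMap O' O'')]
      exact map_nonunit (algebraMap O' O'') _ hlamO
    obtain ⟨O'', _, _, _, _, _, _, _, _, _, -, ρ, hρ, hnot⟩ :=
      h36 hg p S O' hlamO hp2 chig hchig iota hlamS hMS
        (fun O'' _ _ _ _ _ _ _ _ _ _ ρ hρ => residual_isAbsolutelyIrreducible_and_isOdd hp2 hΔ
          hirr (hmem O'') ρ (attached O'' (hmem O'') ρ hρ))
    have hfac : M.factorization q = 2 := by
      have h1 : 2 ≤ M.factorization q := (hq.pow_dvd_iff_le_factorization (NeZero.ne M)).mp hq2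
      have h2 : ¬ 3 ≤ M.factorization q := fun h =>
        hN3 q hq (((hq.pow_dvd_iff_le_factorization (NeZero.ne M)).mpr h).trans hMN)
      omega
    refine hnot q hq hqp hfac fun P hP σ hσ => ?_
    obtain ⟨ht, hd⟩ := attached O'' (hmem O'') ρ (fun ℓ hℓ _ => hρ ℓ hℓ) σ
    let b := Module.finBasisOfFinrankEq O'' ρ.V ρ.finrank_eq
    rw [← LinearMap.charpoly_toMatrix (ρ.ρ σ) b, Matrix.charpoly_fin_two,
      ← LinearMap.trace_eq_matrix_trace, LinearMap.det_toMatrix, ht, hd, det_tateRep,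
      cyc_inertia p hq hqp hP hσ, _root_.map_one]
    have h2 : (tateRep p W hΔ σ).trace = 2 := by
      by_cases hqΔ : (q : ℤ) ∣ W.Δ
      · exact trace_tateRep_inertia W hp2 hΔ hq hqΔ (hss q hq hqΔ) hqp hP hσ
      · rw [tateRep_eq_one_of_good W hΔ hq hqΔ hqp hP hσ, Matrix.trace_one, Fintype.card_fin,
          Nat.cast_ofNat]
    rw [h2, map_ofNat]
    simp only [map_ofNat, _root_.map_one]
    ring
  -- Frobenius at a prime of good reduction
  have good : ∀ q : ℕ, q.Prime → W.IsGoodPrimeFor q →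
      ¬ q ∣ M ∧ (ModularFormClass.qCoeff g q = (W.apOfModel q : ℂ)) := by
    intro q hq hgood
    obtain ⟨lam, hlamq, hlam⟩ := Nat.exists_infinite_primes (q + 1)
    have hne : q ≠ lam := by omega
    have : Fact lam.Prime := ⟨hlam⟩
    obtain ⟨S, O', _, _, _, _, _, _, hlamO, chig, iota, hiota, hlamS, hMS, hS, hchig⟩ :=
      setup lam hlam
    obtain ⟨O'', _, _, _, _, _, _, _, _, _, hinj, ρ, hρ, hst⟩ :=
      h35 hg lam S O' hlamO chig hchig iota hlamS hMS
    have hpO : (lam : O'') ∈ IsLocalRing.maximalIdeal O'' := by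
      rw [← map_natCast (algebraMap O' O'')]
      exact map_nonunit (algebraMap O' O'') _ hlamO
    obtain ⟨A, hA⟩ := FLTAgent.Density.exists_liesOverPrime hq
    obtain ⟨σ, hσ⟩ := FLTAgent.Density.exists_isFrobeniusAt A hq hA
    obtain ⟨ht, -⟩ := trace_det_eq_of_attached hpO ρ hΔ (S ∪ N.primeFactors)
      (fun ℓ hℓ hℓS A hA σ hσ => by
        simp only [Finset.mem_union, Nat.mem_primeFactors, not_or] at hℓS
        obtain ⟨h1, h2⟩ := hℓS
        have hℓN : ¬ ℓ ∣ N := fun h => h2 ⟨hℓ, h, hN0⟩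
        have hℓM : ¬ ℓ ∣ M := fun h => hℓN (h.trans hMN)
        have hℓS' : ℓ ∉ (↑S : Set ℕ) := fun h => h1 (Finset.mem_coe.mp h)
        rw [hρ ℓ hℓ hℓM hℓS' A hA σ hσ, coeff iota hchig ℓ hℓ hℓM hℓS' hℓN]) σ
    rw [trace_tateRep_frobenius W hΔ hq hgood hne hA hσ, map_intCast] at ht
    let b := Module.finBasisOfFinrankEq O'' ρ.V ρ.finrank_eq
    rw [LinearMap.trace_eq_matrix_trace _ b, ← matRep_apply] at ht
    have hnM : ¬ q ∣ M := by
      intro hqM
      rcases hst q hq hne hqM (hsq q hq) A hA σ hσ with h | h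
      · have := (trace_det_of_charpoly ρ b h).1
        rw [ht] at this
        exact (apOfModel_ne W hq).1 (Int.cast_injective (α := O'') (by push_cast; exact this))
      · have := (trace_det_of_charpoly ρ b (a := -((q : O'') + 1)) (d := (q : O''))
          (by rw [h, map_neg, neg_mul, sub_neg_eq_add])).1
        rw [ht] at this
        exact (apOfModel_ne W hq).2 (Int.cast_injective (α := O'') (by push_cast; exact this))
    refine ⟨hnM, ?_⟩
    have hqS : q ∉ (↑S : Set ℕ) := fun h => (hS q (Finset.mem_coe.mp h)).elim hne hnM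
    have h1 := (trace_det_of_charpoly ρ b (hρ q hq hnM hqS A hA σ hσ)).1
    rw [ht, ← map_intCast (algebraMap O' O''), RingHom.comp_apply] at h1
    have h2 := hinj h1
    rw [← map_intCast iota] at h2
    have h3 := congrArg (fun x : chig.range => (x : ℂ)) (hiota h2)
    simp only [RingHom.coe_rangeRestrict, hchig] at h3
    rw [← h3]
    simp
  -- the level divides the conductor level
  have : NeZero W.conductorLevel := inferInstance
  have hMC : M ∣ W.conductorLevel := by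
    have hMsq : Squarefree M := Nat.squarefree_iff_prime_squarefree.mpr fun q hq h =>
      hsq q hq (by rwa [sq])
    rw [← Nat.prod_primeFactors_of_squarefree hMsq]
    refine Finset.prod_primes_dvd _ (fun q hq => (Nat.prime_of_mem_primeFactors hq).prime)
      fun q hq => ?_
    have hqp := Nat.prime_of_mem_primeFactors hq
    rw [WeierstrassCurve.prime_dvd_conductorLevel_iff W hΔ hqp]
    by_contra hgood
    exact (good q hqp hgood).1 (Nat.dvd_of_mem_primeFactors hq)
  obtain ⟨g', hg', hg'c⟩ := FLTAgent.Eigenforms.exists_eigenform_level_mul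
    (FLTAgent.MFIntegral.hasIntegralStructure W.conductorLevel 2) hMC hg.isNormalizedEigenform
  exact ⟨g', hg', fun q hq hgood hqC => by rw [hg'c q hq hqC, (good q hq hgood).2]⟩

end FLTAgent.ConductorMatch
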