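import Fermat.Agent.GaloisAttach.Cyclotomic

/-!
# The cyclotomic character of an involution

For odd `p` an element of order two of the Galois group of `ℚ̄` has cyclotomic character `-1`
(`cyc_involution`). Used by `Attached` for the oddness of the Tate module.
-/

set_option autoImplicit false

noncomputable section

namespace FLTAgent.ConductorMatch

open FLTAgent.Density FLTAgent.GaloisAttach

variable {c : GalQ} (hc : c * c = 1) (hne : c ≠ 1)

include hc in
theorem involution_apply (x : Qbar) : c (c x) = x := by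
  rw [← AlgEquiv.mul_apply, hc, AlgEquiv.one_apply]

include hc hne

theorem exists_neg : ∃ s : Qbar, s ≠ 0 ∧ c s = -s := by
  obtain ⟨x, hx⟩ : ∃ x, c x ≠ x := by
    by_contra h
    push Not at h
    exact hne (AlgEquiv.ext h)
  refine ⟨x - c x, sub_ne_zero.mpr (Ne.symm hx), ?_⟩
  rw [map_sub, involution_apply hc]
  ring

theorem exists_fourth_root_moved : ∃ i : Qbar, i ^ 2 = -1 ∧ c i = -i := by
  obtain ⟨s, hs, hcs⟩ := exists_neg hc hne
  obtain ⟨y, hy⟩ := IsAlgClosed.exists_pow_nat_eq s (n := 2) two_pos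
  obtain ⟨i, hi⟩ := IsAlgClosed.exists_pow_nat_eq (-1 : Qbar) (n := 2) two_pos
  refine ⟨i, hi, ?_⟩
  have h2 : (c i) ^ 2 = i ^ 2 := by rw [← map_pow, hi, map_neg, map_one]
  refine (sq_eq_sq_iff_eq_or_eq_neg.mp h2).resolve_left fun hfix => ?_
  -- `s ^ 2 = (i y c(y)) ^ 2` would make `s` fixed
  have hN : (i * (y * c y)) ^ 2 = s ^ 2 := by
    rw [mul_pow, mul_pow, ← map_pow, hy, hcs, hi]; ring
  have hfixN : c (i * (y * c y)) = i * (y * c y) := by
    rw [map_mul, map_mul, hfix, involution_apply hc]; ring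
  rcases sq_eq_sq_iff_eq_or_eq_neg.mp hN with h | h
  · rw [h, hcs] at hfixN
    exact hs (CharZero.neg_eq_self_iff.mp hfixN)
  · rw [h, map_neg, hcs, neg_neg] at hfixN
    exact hs (CharZero.neg_eq_self_iff.mp hfixN.symm)

/-- A fixed element or its negative is the square of a fixed element. -/
theorem sum_sq_eq_sq {u w : Qbar} (hu : c u = u) (hw : c w = w) :
    ∃ z : Qbar, c z = z ∧ z ^ 2 = u ^ 2 + w ^ 2 := by
  obtain ⟨i, hi, hci⟩ := exists_fourth_root_moved hc hne
  obtain ⟨y, hy⟩ := IsAlgClosed.exists_pow_nat_eq (u + i * w) (n := 2) two_pos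
  refine ⟨y * c y, by rw [map_mul, involution_apply hc, mul_comm], ?_⟩
  rw [mul_pow, ← map_pow, hy, map_add, map_mul, hu, hw, hci]
  linear_combination -(w ^ 2) * hi

theorem eq_one_of_fixed {m : ℕ} (hm : Odd m) {ζ : Qbar} (hfix : c ζ = ζ) (hζ : ζ ^ m = 1) :
    ζ = 1 := by
  obtain ⟨k, rfl⟩ := hm
  obtain ⟨i, hi, hci⟩ := exists_fourth_root_moved hc hne
  have hsum : ∀ n : ℕ, ∃ z, c z = z ∧ z ^ 2 = ∑ j ∈ Finset.range n, ζ ^ (j + 1) := by
    intro n
    induction n with
    | zero => exact ⟨0, map_zero c, by simp⟩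
    | succ n ih =>
      obtain ⟨z, hz, hz2⟩ := ih
      obtain ⟨z', hz', hz2'⟩ := sum_sq_eq_sq hc hne hz
        (show c (ζ ^ ((k + 1) * (n + 1))) = ζ ^ ((k + 1) * (n + 1)) by rw [map_pow, hfix])
      refine ⟨z', hz', ?_⟩
      rw [hz2', hz2, Finset.sum_range_succ, ← pow_mul,
        show (k + 1) * (n + 1) * 2 = (2 * k + 1) * (n + 1) + (n + 1) by ring, pow_add, pow_mul, hζ,
        one_pow, one_mul]
  by_contra h
  obtain ⟨z, hz, hz2⟩ := hsum (2 * k)
  have hg : ∑ j ∈ Finset.range (2 * k + 1), ζ ^ j = 0 := by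
    rw [geom_sum_eq h, hζ, sub_self, zero_div]
  rw [Finset.sum_range_succ', pow_zero, ← hz2] at hg
  rcases sq_eq_sq_iff_eq_or_eq_neg.mp (show z ^ 2 = i ^ 2 by rw [hi]; linear_combination hg) with
    e | e
  · rw [e, hci] at hz
    exact ne_zero_of_pow_eq hi (CharZero.neg_eq_self_iff.mp hz)
  · rw [e, map_neg, hci, neg_neg] at hz
    exact ne_zero_of_pow_eq hi (CharZero.neg_eq_self_iff.mp hz.symm)
where
  ne_zero_of_pow_eq {i : Qbar} (hi : i ^ 2 = -1) : i ≠ 0 := by
    rintro rfl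
    norm_num at hi

/-- The cyclotomic character of an element of order two is `-1`. -/
theorem cyc_involution {p : ℕ} [hp : Fact p.Prime] (hp2 : p ≠ 2) : cyc p c = -1 := by
  have h : cyc p c * cyc p c = 1 := by rw [← map_mul, hc, map_one]
  refine (mul_self_eq_one_iff.mp h).resolve_left fun h1 => ?_
  have : NeZero (p : Qbar) := ⟨Nat.cast_ne_zero.mpr hp.out.ne_zero⟩
  obtain ⟨ζ, hζ⟩ := HasEnoughRootsOfUnity.exists_primitiveRoot Qbar p
  have hfix : c ζ = ζ := by
    have : Fact (1 < p ^ 1) := ⟨by rw [pow_one]; exact hp.out.one_lt⟩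
    have := apply_rootOfUnity p c (n := 1) (ζ := ζ) (by rw [pow_one]; exact hζ.pow_eq_one)
    rwa [h1, map_one, ZMod.val_one, pow_one] at this
  exact hζ.ne_one hp.out.one_lt
    (eq_one_of_fixed hc hne (hp.out.odd_of_ne_two hp2) hfix hζ.pow_eq_one)

end FLTAgent.ConductorMatch
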