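import Fermat.Agent.DefRing.MatrixRep
import Mathlib.LinearAlgebra.Matrix.Charpoly.Coeff
import Mathlib.LinearAlgebra.FreeModule.StrongRankCondition
import Mathlib.Tactic.FinCases

/-!
# Absolute irreducibility from trace and determinant

An odd two-dimensional representation whose trace and determinant are those of an irreducible one
over a subfield is absolutely irreducible (`isAbsolutelyIrreducible_of_trace_det`).
Used by `Attached`.
-/

set_option autoImplicit false

noncomputable section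

open Matrix

namespace FLTAgent.ConductorMatch

variable {F K G : Type} [Field F] [Field K] [Group G] (j : F →+* K)
  (M : G →* Matrix (Fin 2) (Fin 2) F)

/-- If the trace of `M` is a sum of two characters, one of them `1` at an element of trace `0`
squaring to one, then `M` has a common eigenvector. -/
theorem exists_common_eigenvector (h2 : (2 : F) ≠ 0) {c : G} (hcc : c * c = 1)
    (hc0 : (M c).trace = 0) {χ ψ : G →* K} (hχc : χ c = 1) (hψc : ψ c = -1)
    (htr : ∀ g, j (M g).trace = χ g + ψ g) :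
    ∃ v : Fin 2 → F, v ≠ 0 ∧ ∀ g, ∃ a : F, M g *ᵥ v = a • v := by
  have hsq : M c * M c = 1 := by rw [← map_mul, hcc, map_one]
  rw [Matrix.trace_fin_two] at hc0
  have e00 := congrFun (congrFun hsq 0) 0
  rw [Matrix.mul_apply, Fin.sum_univ_two, Matrix.one_apply_eq] at e00
  have hdet : (M c).det = -1 := by
    rw [Matrix.det_fin_two]
    linear_combination (M c 0 0) * hc0 - e00
  have heig : ∀ e : F, e * e = 1 → ∃ u : Fin 2 → F, u ≠ 0 ∧ M c *ᵥ u = e • u := by
    intro e he
    obtain ⟨u, hu, hu0⟩ := (Matrix.exists_mulVec_eq_zero_iff (M := M c - e • 1)).mpr (by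
      rw [Matrix.det_fin_two]
      rw [Matrix.det_fin_two] at hdet
      simp only [Matrix.sub_apply, Matrix.smul_apply, Matrix.one_apply_eq,
        Matrix.one_apply_ne Fin.zero_ne_one, Matrix.one_apply_ne Fin.zero_ne_one.symm, smul_eq_mul,
        mul_one, mul_zero, sub_zero]
      linear_combination hdet - e * hc0 + he)
    exact ⟨u, hu, by rwa [Matrix.sub_mulVec, Matrix.smul_mulVec, Matrix.one_mulVec,
      sub_eq_zero] at hu0⟩
  obtain ⟨u, hu, hcu⟩ := heig 1 (one_mul 1)
  obtain ⟨w, hw, hcw⟩ := heig (-1) (by ring)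
  rw [one_smul] at hcu
  rw [neg_one_smul] at hcw
  have hli : ∀ a b : F, a • u + b • w = 0 → a = 0 ∧ b = 0 := by
    intro a b h
    have h' := congrArg (M c *ᵥ ·) h
    simp only [Matrix.mulVec_add, Matrix.mulVec_smul, hcu, hcw, Matrix.mulVec_zero] at h'
    have ha : (2 * a) • u = 0 := by
      have := congrArg₂ (· + ·) h h'
      simp only [smul_neg, add_zero] at this
      rw [two_mul, add_smul, ← this]
      abel
    have ha' : a = 0 := (mul_eq_zero.mp ((smul_eq_zero.mp ha).resolve_right hu)).resolve_left h2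
    subst ha'
    rw [zero_smul, zero_add] at h
    exact ⟨rfl, (smul_eq_zero.mp h).resolve_right hw⟩
  let Q : Matrix (Fin 2) (Fin 2) F := fun i k => if k = 0 then u i else w i
  have hQ : IsUnit Q.det := isUnit_iff_ne_zero.mpr fun h => by
    obtain ⟨x, hx, hx0⟩ := Matrix.exists_mulVec_eq_zero_iff.mpr h
    obtain ⟨h0, h1⟩ := hli (x 0) (x 1) (funext fun i => by
      have := congrFun hx0 i
      simp [Q, Matrix.mulVec, dotProduct, Fin.sum_univ_two] at this
      simp only [Pi.add_apply, Pi.smul_apply, smul_eq_mul, Pi.zero_apply]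
      linear_combination this)
    exact hx (funext fun i => by fin_cases i <;> assumption)
  have hQc : M c * Q = Q * !![1, 0; 0, -1] := by
    ext i k
    have e1 := congrFun hcu i
    have e2 := congrFun hcw i
    simp only [Matrix.mulVec, dotProduct, Fin.sum_univ_two, Pi.neg_apply] at e1 e2
    fin_cases k <;> simp [Q, Matrix.mul_apply, Fin.sum_univ_two, e1, e2]
  let N : G → Matrix (Fin 2) (Fin 2) F := fun g => Q⁻¹ * M g * Q
  have hNmul : ∀ g h, N (g * h) = N g * N h := fun g h => by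
    simp only [N, map_mul, Matrix.mul_assoc, Matrix.mul_nonsing_inv_cancel_left _ _ hQ]
  have hNtr : ∀ g, (N g).trace = (M g).trace := fun g => by
    simp only [N]
    rw [Matrix.trace_mul_cycle, Matrix.mul_nonsing_inv _ hQ, Matrix.one_mul]
  have hNc : N c = !![1, 0; 0, -1] := by
    simp only [N]
    rw [Matrix.mul_assoc, hQc, Matrix.nonsing_inv_mul_cancel_left _ _ hQ]
  have hj2 : (2 : K) ≠ 0 := by
    rw [← map_ofNat j 2]; exact (_root_.map_ne_zero j).mpr h2
  have ha : ∀ g, j (N g 0 0) = χ g := fun g => by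
    have e1 := htr g
    have e2 := htr (c * g)
    rw [map_mul χ, map_mul ψ, hχc, hψc, ← hNtr, hNmul, hNc] at e2
    rw [← hNtr] at e1
    simp [Matrix.trace_fin_two, Matrix.vecMul, dotProduct,
      Fin.sum_univ_two] at e1 e2
    refine mul_left_cancel₀ hj2 ?_
    linear_combination e1 + e2
  have hbc : ∀ g h, N g 0 1 * N h 1 0 = 0 := fun g h => by
    have e := ha (g * h)
    rw [hNmul, map_mul χ, ← ha g, ← ha h, Matrix.mul_apply, Fin.sum_univ_two, map_add, map_mul,
      add_eq_left, map_eq_zero] at e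
    exact e
  have hMQ : ∀ g, M g * Q = Q * N g := fun g => by
    simp only [N, Matrix.mul_assoc, Matrix.mul_nonsing_inv_cancel_left _ _ hQ]
  by_cases hb : ∀ g, N g 0 1 = 0
  · refine ⟨w, hw, fun g => ⟨N g 1 1, funext fun i => ?_⟩⟩
    have := congrFun (congrFun (hMQ g) i) 1
    simp [Q, Matrix.mul_apply, Fin.sum_univ_two, hb g] at this
    simp only [Matrix.mulVec, dotProduct, Fin.sum_univ_two, Pi.smul_apply, smul_eq_mul]
    rw [this, mul_comm]
  · push Not at hb
    obtain ⟨g₀, hg₀⟩ := hb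
    refine ⟨u, hu, fun g => ⟨N g 0 0, funext fun i => ?_⟩⟩
    have hc10 : N g 1 0 = 0 := (mul_eq_zero.mp (hbc g₀ g)).resolve_left hg₀
    have := congrFun (congrFun (hMQ g) i) 0
    simp [Q, Matrix.mul_apply, Fin.sum_univ_two, hc10] at this
    simp only [Matrix.mulVec, dotProduct, Fin.sum_univ_two, Pi.smul_apply, smul_eq_mul]
    rw [this, mul_comm]



/-- A residual representation with the trace and determinant of an irreducible `M`, odd at `c`,
is absolutely irreducible. -/
theorem isAbsolutelyIrreducible_of_trace_det {k : Type} [Field k] {F : Type} [Field F]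
    (h2 : (2 : F) ≠ 0) (ρ : ResidualGaloisRep k)
    (M : (AlgebraicClosure ℚ ≃ₐ[ℚ] AlgebraicClosure ℚ) →* Matrix (Fin 2) (Fin 2) F) (j : F →+* k)
    (htr : ∀ σ, LinearMap.trace k ρ.V (ρ.ρ σ) = j (M σ).trace)
    (hdet : ∀ σ, LinearMap.det (ρ.ρ σ) = j (M σ).det)
    {c : AlgebraicClosure ℚ ≃ₐ[ℚ] AlgebraicClosure ℚ} (hcc : c * c = 1) (hc : (M c).det = -1)
    (hM : ∀ v : Fin 2 → F, v ≠ 0 → ∃ σ, ∀ a : F, M σ *ᵥ v ≠ a • v) :
    ρ.IsAbsolutelyIrreducible := by
  classical
  let Kb := AlgebraicClosure k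
  intro U hU
  by_contra hne
  rw [not_or] at hne
  obtain ⟨v, hvU, hv⟩ := Submodule.exists_mem_ne_zero_of_ne_bot hne.1
  have hr2 : Module.finrank Kb (ρ.baseChange Kb).V = 2 := (ρ.baseChange Kb).finrank_eq
  have hU1 : Module.finrank Kb U = 1 := by
    have h1 : Module.finrank Kb U < 2 := hr2 ▸ Submodule.finrank_lt hne.2
    have h0 : Module.finrank Kb U ≠ 0 := fun h => hne.1 (Submodule.finrank_eq_zero.mp h)
    omega
  have hli : LinearIndependent Kb ![v] := LinearIndependent.of_subsingleton 0 (by simpa using hv)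
  obtain ⟨w, hw⟩ : ∃ w : (ρ.baseChange Kb).V, w ∉ U := by
    by_contra h
    push Not at h
    exact hne.2 (eq_top_iff.mpr fun x _ => h x)
  have hli2 : LinearIndependent Kb ![v, w] := by
    refine (LinearIndependent.pair_iff' hv).mpr fun a ha => hw (ha ▸ U.smul_mem a hvU)
  let B := basisOfLinearIndependentOfCardEqFinrank hli2 (by rw [hr2]; rfl)
  let N : (AlgebraicClosure ℚ ≃ₐ[ℚ] AlgebraicClosure ℚ) →* Matrix (Fin 2) (Fin 2) Kb :=
    (LinearMap.toMatrixAlgEquiv B).toMonoidHom.comp (ρ.baseChange Kb).ρ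
  have hB0 : B 0 = v := by simp [B]
  have h10 : ∀ σ, N σ 1 0 = 0 := fun σ => by
    rw [show N σ = LinearMap.toMatrix B B ((ρ.baseChange Kb).ρ σ) from rfl,
      LinearMap.toMatrix_apply]
    obtain ⟨a, ha⟩ : ∃ a : Kb, a • v = (ρ.baseChange Kb).ρ σ v :=
      (finrank_eq_one_iff_of_nonzero' (⟨v, hvU⟩ : U) (fun h => hv (congrArg Subtype.val h))).mp hU1
        ⟨_, hU σ v hvU⟩ |>.imp fun a h => congrArg Subtype.val h
    rw [hB0, ← ha, ← hB0, map_smul, B.repr_self]
    simp
  let diag : Fin 2 → ((AlgebraicClosure ℚ ≃ₐ[ℚ] AlgebraicClosure ℚ) →* Kb) := fun i =>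
    { toFun := fun σ => N σ i i
      map_one' := by rw [map_one, Matrix.one_apply_eq]
      map_mul' := fun σ τ => by
        rw [map_mul, Matrix.mul_apply, Fin.sum_univ_two]
        fin_cases i <;> simp [h10] }
  let J : F →+* Kb := (algebraMap k Kb).comp j
  have htrN : ∀ σ, J (M σ).trace = diag 0 σ + diag 1 σ := fun σ => by
    show algebraMap k Kb (j (M σ).trace) = _
    rw [← htr, ← LinearMap.trace_baseChange (ρ.ρ σ) Kb, LinearMap.trace_eq_matrix_trace Kb B,
      Matrix.trace_fin_two]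
    rfl
  have hdetN : ∀ σ, J (M σ).det = diag 0 σ * diag 1 σ := fun σ => by
    show algebraMap k Kb (j (M σ).det) = _
    rw [← hdet, ← LinearMap.det_baseChange, ← LinearMap.det_toMatrix B, Matrix.det_fin_two]
    show N σ 0 0 * N σ 1 1 - N σ 0 1 * N σ 1 0 = _
    rw [h10, mul_zero, sub_zero]
    rfl
  have hsq : ∀ i, diag i c = 1 ∨ diag i c = -1 := fun i =>
    mul_self_eq_one_iff.mp (by rw [← map_mul, hcc, map_one])
  have hprod : diag 0 c * diag 1 c = -1 := by rw [← hdetN, hc, map_neg, map_one]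
  have hc0 : (M c).trace = 0 := by
    have hsqM : M c * M c = 1 := by rw [← map_mul, hcc, map_one]
    have e : J (M c).trace = 0 := by
      rw [htrN]
      rcases hsq 0 with h | h <;> rw [h] at hprod ⊢
      · rw [one_mul] at hprod; rw [hprod]; ring
      · rw [neg_one_mul, neg_inj] at hprod; rw [hprod]; ring
    exact (map_eq_zero J).mp e
  obtain ⟨χ, ψ, hχ, hψ, hsum⟩ : ∃ χ ψ : (AlgebraicClosure ℚ ≃ₐ[ℚ] AlgebraicClosure ℚ) →* Kb,
      χ c = 1 ∧ ψ c = -1 ∧ ∀ σ, J (M σ).trace = χ σ + ψ σ := by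
    rcases hsq 0 with h | h <;> rw [h] at hprod
    · exact ⟨diag 0, diag 1, h, by rwa [one_mul] at hprod, htrN⟩
    · exact ⟨diag 1, diag 0, by rwa [neg_one_mul, neg_inj] at hprod, h,
        fun σ => by rw [htrN, add_comm]⟩
  obtain ⟨x, hx, hx'⟩ := exists_common_eigenvector J M h2 hcc hc0 hχ hψ hsum
  obtain ⟨σ, hσ⟩ := hM x hx
  obtain ⟨a, ha⟩ := hx' σ
  exact hσ a ha

end FLTAgent.ConductorMatch
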