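import Fermat.Agent.ConductorMatch.TateMatrix
import Fermat.Agent.ConductorMatch.Irreducible
import Fermat.Agent.ConductorMatch.Involution
import Fermat.Agent.GaloisAttach.Witness
import Fermat.Agent.Density.Chebotarev

/-!
# Representations attached to a curve have the trace of its Tate module

If a representation has the Frobenius polynomials of `W` outside a finite set of primes then, by
Chebotarev, its trace and determinant are those of `tateRep` (`trace_det_eq_of_attached`).
Used by `Match`.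
-/

set_option autoImplicit false

noncomputable section

open Polynomial WeierstrassCurve WeierstrassCurve.Affine WeierstrassCurve.Affine.Point
open scoped WeierstrassCurve.Affine

namespace FLTAgent.ConductorMatch

open FLTAgent.Density FLTAgent.DefRing FLTAgent.GaloisAttach

theorem trace_det_of_charpoly {O : Type} [CommRing O] [IsLocalRing O] (ρ : GaloisRepAdic O)
    (b : Module.Basis (Fin 2) O ρ.V) {σ : GalQ} {a d : O}
    (h : LinearMap.charpoly (ρ.ρ σ) = X ^ 2 - C a * X + C d) :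
    (matRep ρ b σ).trace = a ∧ (matRep ρ b σ).det = d := by
  rw [← LinearMap.charpoly_toMatrix (ρ.ρ σ) b, ← matRep_apply, Matrix.charpoly_fin_two] at h
  have h0 := congrArg (fun P : O[X] => P.coeff 0) h
  have h1 := congrArg (fun P : O[X] => P.coeff 1) h
  simp [coeff_X_pow, coeff_C] at h0 h1
  exact ⟨h1, h0⟩

variable {p : ℕ} [hp : Fact p.Prime] {W : WeierstrassCurve ℤ}
  {O : Type} [CommRing O] [IsLocalRing O] [IsAdicComplete (IsLocalRing.maximalIdeal O) O]

omit [IsAdicComplete (IsLocalRing.maximalIdeal O) O] in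
theorem map_mem_pow (f : ℤ_[p] →+* O) (hpO : (p : O) ∈ IsLocalRing.maximalIdeal O) {n : ℕ}
    {x : ℤ_[p]} (hx : x ∈ IsLocalRing.maximalIdeal ℤ_[p] ^ n) :
    f x ∈ IsLocalRing.maximalIdeal O ^ n := by
  rw [PadicInt.maximalIdeal_eq_span_p, Ideal.span_singleton_pow, Ideal.mem_span_singleton] at hx
  obtain ⟨y, rfl⟩ := hx
  rw [map_mul, map_pow, map_natCast]
  exact Ideal.mul_mem_right _ _ (Ideal.pow_mem_pow hpO n)

theorem eq_of_forall_sub_mem {a b : O}
    (h : ∀ n, a - b ∈ IsLocalRing.maximalIdeal O ^ n) : a = b := by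
  refine sub_eq_zero.mp (IsHausdorff.haus (IsAdicComplete.toIsHausdorff
    (I := IsLocalRing.maximalIdeal O) (M := O)) _ ?_)
  intro n
  rw [SModEq.zero, smul_eq_mul, Ideal.mul_top]
  exact h n

/-- Trace and determinant of a representation attached to the curve. -/
theorem trace_det_eq_of_attached (hpO : (p : O) ∈ IsLocalRing.maximalIdeal O)
    (ρ : GaloisRepAdic O) (hΔ : W.Δ ≠ 0) (S : Finset ℕ)
    (h : ∀ ℓ : ℕ, ℓ.Prime → ℓ ∉ S → ∀ A : ValuationSubring Qbar, A.LiesOverPrime ℓ →
      ∀ σ : GalQ, A.IsFrobeniusAt σ ℓ →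
        LinearMap.charpoly (ρ.ρ σ) = X ^ 2 - C (W.apOfModel ℓ : O) * X + C (ℓ : O))
    (σ : GalQ) :
    LinearMap.trace O ρ.V (ρ.ρ σ) = padicTo hpO (tateRep p W hΔ σ).trace ∧
      LinearMap.det (ρ.ρ σ) = padicTo hpO (tateRep p W hΔ σ).det := by
  classical
  obtain ⟨b⟩ : Nonempty (Module.Basis (Fin 2) O ρ.V) :=
    ⟨Module.finBasisOfFinrankEq O ρ.V ρ.finrank_eq⟩
  rw [LinearMap.trace_eq_matrix_trace _ b, ← LinearMap.det_toMatrix b, ← matRep_apply]
  set f := padicTo hpO
  let N := mapRep f (tateRep p W hΔ)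
  rw [show f (tateRep p W hΔ σ).det = (N σ).det from RingHom.map_det f _,
    show f (tateRep p W hΔ σ).trace = (N σ).trace from map_sum f _ _]
  suffices key : ∀ n,
      (matRep ρ b σ).trace - (N σ).trace ∈ IsLocalRing.maximalIdeal O ^ n ∧
      (matRep ρ b σ).det - (N σ).det ∈ IsLocalRing.maximalIdeal O ^ n from
    ⟨eq_of_forall_sub_mem fun n => (key n).1, eq_of_forall_sub_mem fun n => (key n).2⟩
  intro n
  obtain ⟨L₁, hL₁, h₁⟩ := matCont_matRep ρ b n
  obtain ⟨L₂, hL₂, h₂⟩ := matCont_tateRep (p := p) W hΔ n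
  have : FiniteDimensional ℚ (L₁ ⊔ L₂ : IntermediateField ℚ Qbar) :=
    IntermediateField.finiteDimensional_sup _ _
  let F : IntermediateField ℚ Qbar :=
    IntermediateField.normalClosure ℚ (L₁ ⊔ L₂ : IntermediateField ℚ Qbar) Qbar
  have : Normal ℚ F := normalClosure.normal ℚ _ Qbar
  have : IsGalois ℚ F := IsGalois.mk
  have hle : (L₁ ⊔ L₂ : IntermediateField ℚ Qbar) ≤ F := IntermediateField.le_normalClosure _
  obtain ⟨ℓ, hℓ, hℓS, A, hA, -, φ, hφ, hagree⟩ :=
    exists_frobenius_agree F σ (S ∪ W.Δ.natAbs.primeFactors ∪ {p})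
  simp only [Finset.mem_union, Finset.mem_singleton, Nat.mem_primeFactors, not_or] at hℓS
  obtain ⟨⟨hℓ1, hℓ2⟩, hℓp⟩ := hℓS
  have hgood : W.IsGoodPrimeFor ℓ := fun hd =>
    hℓ2 ⟨hℓ, Int.natCast_dvd.mp hd, Int.natAbs_ne_zero.mpr hΔ⟩
  have hfix : ∀ x ∈ F, (φ⁻¹ * σ) x = x := fun x hx => by
    rw [AlgEquiv.mul_apply, hagree x hx]
    exact φ.symm_apply_apply x
  let q := Ideal.Quotient.mk (IsLocalRing.maximalIdeal O ^ n)
  have hq : ∀ M : GalQ →* Matrix (Fin 2) (Fin 2) O,
      (∀ i j, (M (φ⁻¹ * σ) - 1) i j ∈ IsLocalRing.maximalIdeal O ^ n) →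
      q.mapMatrix (M σ) = q.mapMatrix (M φ) := fun M hM => by
    have h1 : q.mapMatrix (M (φ⁻¹ * σ)) = 1 := by
      rw [← sub_eq_zero, ← map_one q.mapMatrix, ← map_sub]
      ext i j
      exact Ideal.Quotient.eq_zero_iff_mem.mpr (hM i j)
    rw [show M σ = M φ * M (φ⁻¹ * σ) by rw [← map_mul, mul_inv_cancel_left], map_mul, h1, mul_one]
  have e1 := hq (matRep ρ b) (h₁ _ fun x hx => hfix x (hle (le_sup_left (b := L₂) hx)))
  have e2 := hq N fun i j => by
    have := map_mem_pow f hpO (h₂ _ (fun x hx => hfix x (hle (le_sup_right (a := L₁) hx))) i j)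
    rw [Matrix.sub_apply, map_sub] at this
    rw [Matrix.sub_apply]
    rcases eq_or_ne i j with rfl | hij
    · rw [Matrix.one_apply_eq, map_one] at this
      rw [Matrix.one_apply_eq]
      exact this
    · rw [Matrix.one_apply_ne hij, _root_.map_zero] at this
      rw [Matrix.one_apply_ne hij]
      exact this
  obtain ⟨ht, hd⟩ := trace_det_of_charpoly ρ b (h ℓ hℓ hℓ1 A hA φ hφ)
  have htN : (N φ).trace = (W.apOfModel ℓ : O) := by
    rw [show (N φ).trace = f (tateRep p W hΔ φ).trace from (map_sum f _ _).symm,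
      trace_tateRep_frobenius W hΔ hℓ hgood hℓp hA hφ, map_intCast]
  have hdN : (N φ).det = (ℓ : O) := by
    rw [show (N φ).det = f (tateRep p W hΔ φ).det from (RingHom.map_det f _).symm,
      det_tateRep, cyc_frobenius p hℓ hℓp hA hφ, map_natCast]
  constructor
  · rw [← Ideal.Quotient.eq]
    have r1 := congrArg Matrix.trace e1
    have r2 := congrArg Matrix.trace e2
    rw [RingHom.mapMatrix_apply, RingHom.mapMatrix_apply] at r1 r2
    simp only [Matrix.trace_fin_two, Matrix.map_apply, ← map_add] at r1 r2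
    rw [Matrix.trace_fin_two] at ht htN ⊢
    rw [Matrix.trace_fin_two]
    exact r1.trans ((congrArg q (ht.trans htN.symm)).trans r2.symm)
  · rw [← Ideal.Quotient.eq]
    have r1 := congrArg Matrix.det e1
    have r2 := congrArg Matrix.det e2
    rw [← RingHom.map_det, ← RingHom.map_det] at r1 r2
    exact r1.trans ((congrArg q (hd.trans hdN.symm)).trans r2.symm)

end FLTAgent.ConductorMatch
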