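import Fermat.Prelude.Def_EllipticCurve_FrobeniusTrace
import Fermat.Agent.Density.Inertia
import Fermat.Agent.ECReduction.Inertia
import Fermat.Agent.ECTorsion.Torsion
import Fermat.Agent.ECTorsion.Galois
import Fermat.Agent.Deuring.Archimedean

/-!
# Torsion of an integral Weierstrass curve at a valuation subring of `ℚ̄`

Abbreviations (`EQ`, `Pt`, `Tor`) for a curve `W` over `ℤ` seen over `ℚ̄`, its integrality
(`intAt`) at a valuation subring, `isElliptic`, and inertia and valuation lemmas shared by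
`InertiaTorsion`, `GoodTrace` and the flat models of `TateLocal`.
-/

set_option autoImplicit false

noncomputable section

open WeierstrassCurve WeierstrassCurve.Affine WeierstrassCurve.Affine.Point
open scoped WeierstrassCurve.Affine

namespace FLTAgent.ConductorMatch

open FLTAgent.Density FLTAgent.ECReduction

/-- The curve over `ℚ` with the given integral equation. -/
abbrev EQ (W : WeierstrassCurve ℤ) : WeierstrassCurve.Affine ℚ :=
  (W.map (Int.castRingHom ℚ)).toAffine

/-- Its points over `ℚbar`. -/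
abbrev Pt (W : WeierstrassCurve ℤ) : Type := ((EQ W)⁄Qbar).Point

/-- Its `n`-torsion. -/
abbrev Tor (W : WeierstrassCurve ℤ) (n : ℕ) : Submodule ℤ (Pt W) :=
  Submodule.torsionBy ℤ (Pt W) (n : ℤ)

variable {W : WeierstrassCurve ℤ} {A : ValuationSubring Qbar}

theorem nsmul_coe {n : ℕ} (z : Tor W n) : n • (z : Pt W) = 0 :=
  (FLTAgent.ECTorsion.mem_torsionBy_iff_nsmul n _).mp z.2

/-- Galois acts on torsion points through its action on points. -/
theorem coe_smul {n : ℕ} (σ : GalQ) (z : Tor W n) :
    ((σ • z : Tor W n) : Pt W) = σ • (z : Pt W) := rfl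

theorem baseChange_eq :
    ((EQ W)⁄Qbar : WeierstrassCurve Qbar) = W.map (Int.castRingHom Qbar) := by
  change (W.map (Int.castRingHom ℚ)).map (algebraMap ℚ Qbar) = _
  rw [WeierstrassCurve.map_map]
  exact congrArg W.map (RingHom.ext_int _ _)

theorem map_subtype_eq :
    (W.map (Int.castRingHom A)).map A.subtype = ((EQ W)⁄Qbar : WeierstrassCurve Qbar) := by
  rw [baseChange_eq, WeierstrassCurve.map_map]
  exact congrArg W.map (RingHom.ext_int _ _)

theorem intAt : IntAt A ((EQ W)⁄Qbar : WeierstrassCurve Qbar) := by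
  rw [baseChange_eq]
  exact ⟨val_intCast_le A _, val_intCast_le A _, val_intCast_le A _, val_intCast_le A _,
    val_intCast_le A _⟩

theorem isElliptic (hΔ : W.Δ ≠ 0) : ((EQ W)⁄Qbar).IsElliptic := ⟨by
  rw [baseChange_eq, WeierstrassCurve.map_Δ, isUnit_iff_ne_zero]
  simpa using hΔ⟩

/-- An integer prime to `ℓ` has valuation `1` at a place over `ℓ`. -/
theorem val_natCast_eq_one {ℓ n : ℕ} (hℓ : ℓ.Prime) (hA : A.LiesOverPrime ℓ) (hn : ¬ ℓ ∣ n) :
    A.valuation (n : Qbar) = 1 := by
  have : Fact ℓ.Prime := ⟨hℓ⟩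
  have hu : IsUnit (((n : ℤ)) : A) := FLTAgent.Deuring.isUnit_intCast_of_not_dvd hA
    (by exact_mod_cast hn)
  rw [Int.cast_natCast] at hu
  exact (A.valuation_eq_one_iff (n : A)).mp hu

end FLTAgent.ConductorMatch
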