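import Fermat.Agent.ECTorsion.FrobTrace
import Fermat.Agent.ECTorsion.DetCyclotomic

/-!
# Determinant and trace of Galois on `E[n]` free of rank two

By the Weil pairing the determinant of the action on `E[n]` is the action on `n`-th roots of unity
(`algEquiv_apply_eq_pow_det`); hence `det_trace_frobenius_level` for an element acting as a
Frobenius. Used by `GoodTrace`.
-/

set_option autoImplicit false

open WeierstrassCurve.Affine WeierstrassCurve.Affine.Point
open scoped WeierstrassCurve.Affine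

namespace FLTAgent.ConductorMatch

open FLTAgent.ECTorsion FLTAgent.ECTorsion.Weil

universe u v w

section Galois

variable {R : Type u} {S : Type w} {K : Type v} [CommRing R] [CommRing S] [Field K]
  [DecidableEq K] [Algebra R S] [Algebra R K] [Algebra S K] [IsScalarTower R S K] [IsAlgClosed K]
  (W' : WeierstrassCurve.Affine R) [(W'⁄K).IsElliptic] {n : ℕ} [NeZero n]

/-- An element of the Galois group acts on `μ_n` through the determinant on `E[n]`. -/
theorem algEquiv_apply_eq_pow_det (hn : (n : K) ≠ 0)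
    (b : Module.Basis (Fin 2) (ZMod n) (Submodule.torsionBy ℤ (W'⁄K).Point (n : ℤ)))
    (σ : K ≃ₐ[S] K) {ζ : K} (hζ : ζ ^ n = 1) :
    σ ζ = ζ ^ (LinearMap.det (galoisRepModuleEnd S W' n σ)).val := by
  classical
  have hs : Weil.FixesCurve (W'⁄K) (σ : K →+* K) := ⟨by
    change WeierstrassCurve.map (WeierstrassCurve.map W' (algebraMap R K)) _ =
      WeierstrassCurve.map W' (algebraMap R K)
    rw [WeierstrassCurve.map_map]
    congr 1
    ext r
    simp [IsScalarTower.algebraMap_apply R S K r]⟩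
  have hs' : Weil.Compatible (σ : K →+* K)
      (DistribMulAction.toAddEquiv (W'⁄K).Point σ) := fun c d h =>
    ⟨(baseChange_nonsingular (W := W') (f := (σ.restrictScalars R).toAlgHom) σ.injective c d).mpr h,
      rfl⟩
  exact apply_eq_pow_det W' hn b hs hs' (galoisRepModuleEnd S W' n σ) (fun _ => rfl) hζ

end Galois

section Frobenius

variable {F : Type u} [Field F] [Fintype F] {K : Type v} [Field K] [DecidableEq K] [Algebra F K]
  [IsAlgClosed K] (W₀ : WeierstrassCurve.Affine F) [(W₀⁄K).IsElliptic] {n : ℕ} [NeZero n]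
  (σ : K ≃ₐ[F] K)

/-- Determinant `q` and trace `q + 1 - #E(F)` of the Frobenius on `E[n]`. -/
theorem det_trace_frobenius_level [DecidableEq F] (hn : (n : K) ≠ 0)
    (b : Module.Basis (Fin 2) (ZMod n) (Submodule.torsionBy ℤ (W₀⁄K).Point (n : ℤ)))
    (hσ : ∀ c, σ c = c ^ Fintype.card F) :
    LinearMap.det (galoisRepModuleEnd F W₀ n σ) = (Fintype.card F : ZMod n) ∧
      LinearMap.trace (ZMod n) _ (galoisRepModuleEnd F W₀ n σ) =
        ((Fintype.card F : ℤ) + 1 - Nat.card W₀.Point : ℤ) := by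
  classical
  obtain ⟨p₀, hchar⟩ := CharP.exists F
  obtain ⟨m, hp₀, hm⟩ := FiniteField.card F p₀
  have : Fact p₀.Prime := ⟨hp₀⟩
  have : ExpChar F p₀ := ExpChar.prime hp₀
  have : ExpChar (W₀⁄K).FunctionField p₀ := expChar_of_injective_ringHom
    ((algebraMap K (W₀⁄K).FunctionField).comp (algebraMap F K)).injective p₀
  have hφ : ∀ f : (W₀⁄K).FunctionField,
      iterateFrobenius (W₀⁄K).FunctionField p₀ m f = f ^ Fintype.card F := fun f => by
    rw [iterateFrobenius_def, hm]
  have hs : Weil.FixesCurve (W₀⁄K) (σ : K →+* K) := ⟨by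
    change WeierstrassCurve.map (WeierstrassCurve.map W₀ (algebraMap F K)) _ =
      WeierstrassCurve.map W₀ (algebraMap F K)
    rw [WeierstrassCurve.map_map]
    congr 1
    ext r
    simp⟩
  have hs' : ∀ (c d : K) (h : (W₀⁄K).Nonsingular c d), ∃ h' : (W₀⁄K).Nonsingular (σ c) (σ d),
      DistribSMul.toAddMonoidHom (W₀⁄K).Point σ (Point.some c d h) =
        Point.some (σ c) (σ d) h' := fun c d h =>
    ⟨(baseChange_nonsingular (W := W₀) (f := σ.toAlgHom) σ.injective c d).mpr h, rfl⟩
  obtain ⟨ψ, hψ⟩ := Weil.exists_isPullback_frob_sub_one (s := (σ : K →+* K)) hs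
    (Fintype.one_lt_card (α := F)) hσ hφ hs'
  set a := DistribSMul.toAddMonoidHom (W₀⁄K).Point σ - AddMonoidHom.id _ with ha
  have hker : {T : (W₀⁄K).Point | a T = 0} = {T | σ • T = T} := by
    ext T
    simp [ha, sub_eq_zero]
  have : Finite W₀.Point := inferInstance
  have : Nonempty W₀.Point := ⟨0⟩
  have hfin : {T : (W₀⁄K).Point | a T = 0}.Finite := by
    rw [hker]
    exact Set.finite_coe_iff.mp (Nat.finite_of_card_ne_zero (by
      rw [Set.coe_ofPred, card_fixed_points W₀ σ hσ]; exact Nat.card_pos.ne'))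
  have hN : hfin.toFinset.card = Nat.card W₀.Point := by
    rw [← Nat.card_eq_card_finite_toFinset hfin, hker, Set.coe_ofPred, card_fixed_points W₀ σ hσ]
  set f := galoisRepModuleEnd F W₀ n σ
  have hdet : LinearMap.det f = (Fintype.card F : ZMod n) := by
    have : NeZero (n : K) := ⟨hn⟩
    obtain ⟨ζ, hζ⟩ := HasEnoughRootsOfUnity.exists_primitiveRoot K n
    have h := algEquiv_apply_eq_pow_det W₀ hn b σ hζ.pow_eq_one
    rw [hσ, (hζ.isOfFinOrder (NeZero.ne n)).pow_eq_pow_iff_modEq, ← hζ.eq_orderOf,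
      ← ZMod.natCast_eq_natCast_iff, ZMod.natCast_zmod_val] at h
    exact h.symm
  refine ⟨hdet, ?_⟩
  obtain ⟨z₀, z₁, hprim, hmul⟩ := exists_primitive_pair W₀ hn b
  have hf : ∀ z, ((f - 1) z : (W₀⁄K).Point) = a (z : (W₀⁄K).Point) := fun z => rfl
  have h := hψ.weilPairing_map hn hfin ((mem_torsionBy_iff_nsmul n _).mp z₀.2)
    ((mem_torsionBy_iff_nsmul n _).mp z₁.2)
  rw [← hf, ← hf, hmul, hN, (hprim.isOfFinOrder (NeZero.ne n)).pow_eq_pow_iff_modEq,
    ← hprim.eq_orderOf, ← ZMod.natCast_eq_natCast_iff, ZMod.natCast_zmod_val] at h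
  have key : LinearMap.det (f - 1) = LinearMap.det f - LinearMap.trace (ZMod n) _ f + 1 := by
    rw [← LinearMap.det_toMatrix b, ← LinearMap.det_toMatrix b f,
      LinearMap.trace_eq_matrix_trace _ b, map_sub, LinearMap.toMatrix_one, Matrix.det_fin_two,
      Matrix.det_fin_two, Matrix.trace_fin_two]
    simp
    ring
  push_cast
  rw [← h, key, hdet]
  ring

end Frobenius

end FLTAgent.ConductorMatch
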