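import Fermat.Agent.ConductorMatch.CurveSetup
import Fermat.Agent.ConductorMatch.LevelPairing
import Fermat.Agent.ECTorsion.TorsionReduction
import Fermat.Agent.Density.Frobenius
import Mathlib.Algebra.Algebra.ZMod

/-!
# Trace and determinant of a Frobenius on `E[p^k]` at a good prime

At a good prime `ℓ ≠ p` a Frobenius has trace `a_ℓ` and determinant `ℓ` on `E[p^k]`
(`trace_det_frobenius`). Used by `TateMatrix` and `ECTorsion.GlobalTrace`.
-/

set_option autoImplicit false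

open WeierstrassCurve WeierstrassCurve.Affine WeierstrassCurve.Affine.Point
open scoped WeierstrassCurve.Affine

namespace FLTAgent.ConductorMatch

open FLTAgent.ECTorsion

variable {W : WeierstrassCurve ℤ} {ℓ p : ℕ} [Fact p.Prime]
  {A : ValuationSubring (AlgebraicClosure ℚ)}

/-- Trace and determinant of a Frobenius at a good prime `ℓ ≠ p`. -/
theorem trace_det_frobenius (hℓ : ℓ.Prime) (hgood : W.IsGoodPrimeFor ℓ) (hℓp : ℓ ≠ p) (k : ℕ)
    (hA : A.LiesOverPrime ℓ) {σ : AlgebraicClosure ℚ ≃ₐ[ℚ] AlgebraicClosure ℚ}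
    (hσ : A.IsFrobeniusAt σ ℓ) :
    LinearMap.trace (ZMod (p ^ k)) _ (galoisRepModuleEnd ℚ (EQ W) (p ^ k) σ) =
        (W.apOfModel ℓ : ZMod (p ^ k)) ∧
      LinearMap.det (galoisRepModuleEnd ℚ (EQ W) (p ^ k) σ) = (ℓ : ZMod (p ^ k)) := by
  classical
  have : Fact ℓ.Prime := ⟨hℓ⟩
  let κ := IsLocalRing.ResidueField A
  have : IsAlgClosed κ := FLTAgent.Deuring.isAlgClosed_residueField A
  have hℓ0 : (ℓ : κ) = 0 := by
    obtain ⟨hm, hu⟩ := (ValuationSubring.mem_nonunits_iff_exists_mem_maximalIdeal (A := A)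
      (a := (ℓ : AlgebraicClosure ℚ))).mp hA
    rw [← map_natCast (IsLocalRing.residue A), IsLocalRing.residue_eq_zero_iff]
    exact hu
  have : CharP κ ℓ := (CharP.charP_iff_prime_eq_zero hℓ).mpr hℓ0
  let alg : Algebra (ZMod ℓ) κ := ZMod.algebra κ ℓ
  have hpℓ : ¬ (ℓ : ℤ) ∣ (p : ℤ) := by
    rw [Int.natCast_dvd_natCast, Nat.prime_dvd_prime_iff_eq hℓ Fact.out]
    exact hℓp
  have hpu : IsUnit ((p : ℤ) : A) := FLTAgent.Deuring.isUnit_intCast_of_not_dvd hA hpℓ
  rw [Int.cast_natCast] at hpu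
  have hpk : (p : κ) ≠ 0 := by
    rw [← map_natCast (IsLocalRing.residue A)]
    exact (hpu.map _).ne_zero
  have hv : A.valuation (p : AlgebraicClosure ℚ) = 1 := (A.valuation_eq_one_iff (p : A)).mp hpu
  let W₁ : WeierstrassCurve A := W.map (Int.castRingHom A)
  have : W₁.IsElliptic := ⟨by
    rw [WeierstrassCurve.map_Δ]
    exact FLTAgent.Deuring.isUnit_intCast_of_not_dvd hA hgood⟩
  have hW : W₁.map A.subtype = (W.map (Int.castRingHom ℚ)).toAffine⁄(AlgebraicClosure ℚ) := by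
    change (W.map (Int.castRingHom A)).map A.subtype =
      (W.map (Int.castRingHom ℚ)).map (algebraMap ℚ (AlgebraicClosure ℚ))
    rw [WeierstrassCurve.map_map, WeierstrassCurve.map_map]
    exact congrArg W.map (RingHom.ext_int _ _)
  have hW₀ : W₁.map (IsLocalRing.residue A) = (W.reductionMod ℓ).toAffine⁄κ := by
    change (W.map (Int.castRingHom A)).map (IsLocalRing.residue A) =
      (W.map (Int.castRingHom (ZMod ℓ))).map (algebraMap (ZMod ℓ) κ)
    rw [WeierstrassCurve.map_map, WeierstrassCurve.map_map]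
    exact congrArg W.map (RingHom.ext_int _ _)
  have : ((W.map (Int.castRingHom ℚ)).toAffine⁄(AlgebraicClosure ℚ)).IsElliptic :=
    hW ▸ inferInstanceAs ((W₁.map A.subtype).IsElliptic)
  have : ((W.reductionMod ℓ).toAffine⁄κ).IsElliptic :=
    hW₀ ▸ inferInstanceAs ((W₁.map (IsLocalRing.residue A)).IsElliptic)
  have hpk' : ((p ^ k : ℕ) : κ) ≠ 0 := by rw [Nat.cast_pow]; exact pow_ne_zero _ hpk
  have : NeZero (p ^ k) := ⟨pow_ne_zero _ (Fact.out : p.Prime).ne_zero⟩
  have hv' : A.valuation ((p ^ k : ℕ) : AlgebraicClosure ℚ) = 1 := by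
    rw [Nat.cast_pow, map_pow, hv, one_pow]
  obtain ⟨red, hinj, hspec⟩ := Red.exists_red (n := p ^ k) hv' _ _ hW hW₀
  have hpQ : ((p ^ k : ℕ) : AlgebraicClosure ℚ) ≠ 0 := Nat.cast_ne_zero.mpr (NeZero.ne _)
  have := finite_torsionBy (W.reductionMod ℓ).toAffine (K := κ) hpk'
  have := finite_torsionBy (W.map (Int.castRingHom ℚ)).toAffine (K := AlgebraicClosure ℚ) hpQ
  have hbij : Function.Bijective red := (Nat.bijective_iff_injective_and_card _).mpr
    ⟨hinj, (card_torsionBy (W.map (Int.castRingHom ℚ)).toAffine (K := AlgebraicClosure ℚ) hpQ).trans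
      (card_torsionBy (W.reductionMod ℓ).toAffine (K := κ) hpk').symm⟩
  let e := LinearEquiv.ofBijective (red.toZModLinearMap (p ^ k)) hbij
  let φ : κ ≃ₐ[ZMod ℓ] κ := AlgEquiv.ofBijective (FiniteField.frobeniusAlgHom (ZMod ℓ) κ)
    ⟨RingHom.injective _, fun y => by
      obtain ⟨z, hz⟩ := IsAlgClosed.exists_pow_nat_eq y hℓ.pos
      exact ⟨z, by rw [FiniteField.frobeniusAlgHom_apply, ZMod.card]; exact hz⟩⟩
  have hφ : ∀ c, φ c = c ^ Fintype.card (ZMod ℓ) := fun c => rfl
  have hres : ∀ (x : AlgebraicClosure ℚ) (hx : x ∈ A),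
      IsLocalRing.residue A ⟨σ x,
          (FLTAgent.Density.apply_mem_iff hσ.mem_decompositionSubgroup x).mpr hx⟩ =
        φ (IsLocalRing.residue A ⟨x, hx⟩) := fun x hx => by
    rw [hφ, ZMod.card, ← hσ.smul_residue_eq,
      FLTAgent.Density.residue_smul hσ.mem_decompositionSubgroup]
  have hcomm : ∀ z, red (σ • z) = φ • red z := fun z => by
    rcases hz : (z : ((W.map (Int.castRingHom ℚ)).toAffine⁄(AlgebraicClosure ℚ)).Point) with
      _ | ⟨x, y, h⟩
    · have : z = 0 := Subtype.ext hz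
      rw [this, smul_zero, _root_.map_zero, smul_zero]
    obtain ⟨hx, hy, h₀, e₁⟩ := hspec z x y h hz
    have hz' : ((σ • z : Submodule.torsionBy ℤ _ ((p ^ k : ℕ) : ℤ)) :
        ((W.map (Int.castRingHom ℚ)).toAffine⁄(AlgebraicClosure ℚ)).Point) =
          σ • Point.some x y h := congrArg (σ • ·) hz
    rw [algEquiv_smul_def, Point.map_some] at hz'
    obtain ⟨hx', hy', h₁, e₂⟩ := hspec (σ • z) _ _ _ hz'
    refine Subtype.ext (e₂.trans ?_)
    change _ = φ • (red z : ((W.reductionMod ℓ).toAffine⁄κ).Point)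
    rw [e₁]
    refine Eq.trans ?_ (Point.map_some (W' := (W.reductionMod ℓ).toAffine) φ.toAlgHom h₀).symm
    rw [Point.some.injEq]
    exact ⟨hres x hx, hres y hy⟩
  have hconj : galoisRepModuleEnd (ZMod ℓ) (W.reductionMod ℓ).toAffine (p ^ k) φ =
      e.conj (galoisRepModuleEnd ℚ (W.map (Int.castRingHom ℚ)).toAffine (p ^ k) σ) := by
    ext z : 1
    obtain ⟨z, rfl⟩ := e.surjective z
    rw [LinearEquiv.conj_apply_apply, LinearEquiv.symm_apply_apply, galoisRepModuleEnd_apply,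
      galoisRepModuleEnd_apply]
    exact (hcomm z).symm
  obtain ⟨b⟩ := nonempty_basis_torsionBy_primePow (W.reductionMod ℓ).toAffine (K := κ) hpk k
  obtain ⟨h1, h2⟩ := det_trace_frobenius_level (W.reductionMod ℓ).toAffine φ hpk' b hφ
  constructor
  · rw [← LinearMap.trace_conj' _ e, ← hconj, h2, ZMod.card]
    exact congrArg _ (by simp [WeierstrassCurve.apOfModel, WeierstrassCurve.traceOfFrobenius,
      WeierstrassCurve.card])
  · rw [← LinearMap.det_conj _ e]
    rw [← LinearMap.comp_assoc, ← LinearEquiv.conj_apply]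
    rw [← hconj, h1, ZMod.card]

end FLTAgent.ConductorMatch
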