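import Fermat.Agent.ECReduction.Multiple

/-!
# Node data at a place of multiplicative reduction

Over an algebraically closed field with a valuation subring: if `Δ` is not a unit and `c₄` is one,
the integral Weierstrass equation has node data (`nonempty_nodeData`). Used by `InertiaTorsion`
and `GaloisImage.Local`.
-/

set_option autoImplicit false

namespace FLTAgent.ConductorMatch

open FLTAgent.ECReduction WeierstrassCurve

variable {K : Type*} [Field K] {A : ValuationSubring K} {W : WeierstrassCurve K}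

local notation "v" => A.valuation

theorem exists_integral_root [IsAlgClosed K] {a b c : K} (ha0 : a ≠ 0)
    (hc : v c ≤ 1) (hu : v a = 1 ∨ v b = 1) :
    ∃ z, v z ≤ 1 ∧ a * z ^ 2 + b * z + c = 0 := by
  obtain ⟨z₁, z₂, hs, hp⟩ := exists_quadratic_root (b / a) (c / a)
  have e1 : a * (z₁ + z₂) = -b := by rw [hs]; field_simp
  have e2 : a * (z₁ * z₂) = c := by rw [hp]; field_simp
  by_cases h1 : v z₁ ≤ 1
  · exact ⟨z₁, h1, by linear_combination -e2 + z₁ * e1⟩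
  refine ⟨z₂, ?_, by linear_combination -e2 + z₂ * e1⟩
  by_contra h2
  rw [not_le] at h1 h2
  have e3 : v (a * z₁) * v z₂ ≤ 1 := by rw [← map_mul, mul_assoc, e2]; exact hc
  have e4 : v (a * z₂) * v z₁ ≤ 1 := by rw [← map_mul, mul_assoc, mul_comm z₂, e2]; exact hc
  have l : ∀ x y : A.ValueGroup, 1 < y → x * y ≤ 1 → x < 1 := fun x y hy h => by
    by_contra hx
    rw [not_lt] at hx
    exact not_lt.2 h (hy.trans_le (le_mul_of_one_le_left' hx))
  have hlt := val_add_lt A (l _ _ h2 e3) (l _ _ h1 e4)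
  rw [← mul_add, e1, A.valuation.map_neg] at hlt
  rcases hu with hu | hu
  · rw [map_mul, hu, one_mul] at e3
    exact not_lt.2 e3 (h1.trans_le (le_mul_of_one_le_right' h2.le))
  · exact hlt.ne hu

/-- Node data exist wherever the discriminant is small and `c₄` is a unit. -/
theorem nonempty_nodeData [IsAlgClosed K] (h20 : (2 : K) ≠ 0) (h30 : (3 : K) ≠ 0)
    (hW : IntAt A W) (hΔ : v W.Δ < 1) (hc4 : v W.c₄ = 1) : Nonempty (NodeData A W) := by
  have h2 := val_ofNat_le A 2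
  have h6 := val_ofNat_le A 6
  have hb2 : v W.b₂ ≤ 1 := val_add_le A (val_pow_le A hW.h₁ 2)
    (val_mul_le A (val_ofNat_le A 4) hW.h₂)
  have hb4 : v W.b₄ ≤ 1 := val_add_le A (val_mul_le A h2 hW.h₄) (val_mul_le A hW.h₁ hW.h₃)
  have h60 : (6 : K) ≠ 0 := by
    rw [show (6 : K) = 2 * 3 by norm_num]; exact mul_ne_zero h20 h30
  -- if `6` is not a unit then `b₂` is
  have hub : v (6 : K) < 1 → v W.b₂ = 1 := fun h => by
    by_contra hne
    have hlt := lt_of_le_of_ne hb2 hne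
    have : v W.c₄ < 1 := by
      rw [WeierstrassCurve.c₄, show (24 : K) = 6 * 4 by norm_num, sq]
      exact val_sub_lt A (val_mul_lt_right A hb2 hlt)
        (val_mul_lt_left A (val_mul_lt_left A h (val_ofNat_le A 4)) hb4)
    exact this.ne hc4
  have hu : v (6 : K) = 1 ∨ v W.b₂ = 1 := (eq_or_lt_of_le h6).imp_right hub
  obtain ⟨r₀, hr₀, hroot₀⟩ := exists_integral_root h60 hb4 hu
  -- everything is determined by a root `r` of `6 r² + b₂ r + b₄`
  have key : ∀ r, v r ≤ 1 → 6 * r ^ 2 + W.b₂ * r + W.b₄ = 0 →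
      ∃ t s u c : K, v t ≤ 1 ∧ v s ≤ 1 ∧ dY W r t = 0 ∧ dX W r t = 0 ∧
        s ^ 2 + W.a₁ * s = W.a₂ + 3 * r ∧ u = W.a₁ + 2 * s ∧ v u = 1 ∧
        c = r ^ 3 + W.a₂ * r ^ 2 + W.a₄ * r + W.a₆ - t ^ 2 - W.a₁ * r * t - W.a₃ * t ∧
        v c ≤ 1 ∧ u ^ 2 = W.b₂ + 12 * r ∧
        4 * c = 4 * r ^ 3 + W.b₂ * r ^ 2 + 2 * W.b₄ * r + W.b₆ ∧
        W.Δ = -c * (u ^ 6 + 432 * c) := by
    intro r hr hroot
    set t := -(W.a₁ * r + W.a₃) / 2 with htdef
    have ht2 : 2 * t = -(W.a₁ * r + W.a₃) := by rw [htdef]; field_simp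
    have hY : dY W r t = 0 := by simp only [dY]; linear_combination ht2
    have hX : dX W r t = 0 := by
      have h : 2 * dX W r t = 0 := by
        simp only [dX, WeierstrassCurve.b₂, WeierstrassCurve.b₄] at hroot ⊢
        linear_combination W.a₁ * ht2 - hroot
      exact (mul_eq_zero.1 h).resolve_left h20
    have ht : v t ≤ 1 := by
      rcases eq_or_lt_of_le h2 with h | h
      · rw [htdef, map_div₀, h, div_one]
        exact val_neg_le A (val_add_le A (val_mul_le A hW.h₁ hr) hW.h₃)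
      · have hb := hub (by
          rw [show (6 : K) = 2 * 3 by norm_num]; exact val_mul_lt_left A h (val_ofNat_le A 3))
        have ha1 : v W.a₁ = 1 := by
          refine le_antisymm hW.h₁ (not_lt.1 fun hlt => ?_)
          have : v W.b₂ < 1 := by
            rw [WeierstrassCurve.b₂, show (4 : K) = 2 * 2 by norm_num, sq]
            exact val_add_lt A (val_mul_lt_right A hW.h₁ hlt)
              (val_mul_lt_left A (val_mul_lt_left A h h2) hW.h₂)
          exact this.ne hb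
        have e : W.a₁ * t = 3 * r ^ 2 + 2 * W.a₂ * r + W.a₄ := by
          simp only [dX] at hX; linear_combination hX
        have : v (W.a₁ * t) ≤ 1 := by
          rw [e]
          exact val_add_le A (val_add_le A (val_mul_le A (val_ofNat_le A 3) (val_pow_le A hr 2))
            (val_mul_le A (val_mul_le A h2 hW.h₂) hr)) hW.h₄
        rwa [map_mul, ha1, one_mul] at this
    obtain ⟨s, s', hs, hp⟩ := exists_quadratic_root W.a₁ (-(W.a₂ + 3 * r))
    have es : s ^ 2 + W.a₁ * s = W.a₂ + 3 * r := by linear_combination -hp + s * hs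
    have hsle : v s ≤ 1 := val_le_of_quadratic hW.h₁
      (val_neg_le A (val_add_le A hW.h₂ (val_mul_le A (val_ofNat_le A 3) hr)))
      (show s ^ 2 + W.a₁ * s + -(W.a₂ + 3 * r) = 0 by linear_combination es)
    have hu2 : (W.a₁ + 2 * s) ^ 2 = W.b₂ + 12 * r := by
      simp only [WeierstrassCurve.b₂]; linear_combination 4 * es
    have hu4 : (W.a₁ + 2 * s) ^ 4 = W.c₄ := by
      rw [show (W.a₁ + 2 * s) ^ 4 = ((W.a₁ + 2 * s) ^ 2) ^ 2 by ring, hu2, WeierstrassCurve.c₄]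
      linear_combination 24 * hroot
    have hvu : v (W.a₁ + 2 * s) = 1 := by
      have hle : v (W.a₁ + 2 * s) ≤ 1 := val_add_le A hW.h₁ (val_mul_le A h2 hsle)
      refine le_antisymm hle (not_lt.1 fun hlt => ?_)
      have := hc4 ▸ hu4 ▸ map_pow (v) (W.a₁ + 2 * s) 4
      exact (pow_lt_one₀ zero_le hlt (by norm_num)).ne this.symm
    set c := r ^ 3 + W.a₂ * r ^ 2 + W.a₄ * r + W.a₆ - t ^ 2 - W.a₁ * r * t - W.a₃ * t with hc
    have hG : 4 * c = 4 * r ^ 3 + W.b₂ * r ^ 2 + 2 * W.b₄ * r + W.b₆ := by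
      simp only [hc, WeierstrassCurve.b₂, WeierstrassCurve.b₄, WeierstrassCurve.b₆]
      linear_combination -(2 * t + W.a₁ * r + W.a₃) * ht2
    have hcle : v c ≤ 1 := by
      refine val_sub_le A (val_sub_le A (val_sub_le A (val_add_le A (val_add_le A (val_add_le A
        (val_pow_le A hr 3) (val_mul_le A hW.h₂ (val_pow_le A hr 2))) (val_mul_le A hW.h₄ hr))
        hW.h₆) (val_pow_le A ht 2)) (val_mul_le A (val_mul_le A hW.h₁ hr) ht))
        (val_mul_le A hW.h₃ ht)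
    refine ⟨t, s, _, c, ht, hsle, hY, hX, es, rfl, hvu, rfl, hcle, hu2, hG, ?_⟩
    have hc6 : W.c₆ = -(W.b₂ + 12 * r) ^ 3 - 216 * (4 * c) := by
      rw [hG, WeierstrassCurve.c₆]; linear_combination 36 * (W.b₂ + 12 * r) * hroot
    have h1728 : (1728 : K) ≠ 0 := by
      rw [show (1728 : K) = 2 ^ 6 * 3 ^ 3 by norm_num]
      exact mul_ne_zero (pow_ne_zero _ h20) (pow_ne_zero _ h30)
    refine mul_left_cancel₀ h1728 ?_
    rw [W.c_relation, ← hu4, hc6, ← hu2]
    ring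
  obtain ⟨t₀, s₀, u₀, c₀, ht₀, hs₀, hY₀, hX₀, es₀, rfl, hvu₀, hc₀, hcle₀, hu2₀, hG₀, hD₀⟩ :=
    key r₀ hr₀ hroot₀
  by_cases hsmall : v c₀ < 1
  · exact ⟨⟨r₀, t₀, s₀, hr₀, ht₀, hs₀, hY₀, hX₀, es₀, hvu₀, hc₀ ▸ hsmall⟩⟩
  have hv1 : v c₀ = 1 := le_antisymm hcle₀ (not_lt.1 hsmall)
  have hother : v ((W.a₁ + 2 * s₀) ^ 6 + 432 * c₀) < 1 := by
    rwa [hD₀, map_mul, A.valuation.map_neg, hv1, one_mul] at hΔ
  have hv6 : v (6 : K) = 1 := by
    refine le_antisymm h6 (not_lt.1 fun h => ?_)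
    have h432 : v ((432 : K) * c₀) < 1 := by
      rw [show (432 : K) = 6 * 72 by norm_num]
      exact val_mul_lt_left A (val_mul_lt_left A h (val_ofNat_le A 72)) hcle₀
    have h6' := val_sub_lt A hother h432
    rw [add_sub_cancel_right, map_pow, hvu₀, one_pow] at h6'
    exact lt_irrefl _ h6'
  set r₁ := -W.b₂ / 6 - r₀ with hr₁def
  have hr₁6 : 6 * r₁ = -W.b₂ - 6 * r₀ := by rw [hr₁def]; field_simp
  have hr₁ : v r₁ ≤ 1 := val_sub_le A (by rw [map_div₀, hv6, div_one]; exact val_neg_le A hb2) hr₀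
  have hroot₁ : 6 * r₁ ^ 2 + W.b₂ * r₁ + W.b₄ = 0 := by
    linear_combination hroot₀ + (r₁ - r₀) * hr₁6
  obtain ⟨t₁, s₁, u₁, c₁, ht₁, hs₁, hY₁, hX₁, es₁, rfl, hvu₁, hc₁, -, hu2₁, hG₁, -⟩ :=
    key r₁ hr₁ hroot₁
  refine ⟨⟨r₁, t₁, s₁, hr₁, ht₁, hs₁, hY₁, hX₁, es₁, hvu₁, hc₁ ▸ ?_⟩⟩
  have e : 432 * c₁ = (W.a₁ + 2 * s₀) ^ 6 + 432 * c₀ := by
    rw [show (W.a₁ + 2 * s₀) ^ 6 = ((W.a₁ + 2 * s₀) ^ 2) ^ 3 by ring, hu2₀]
    linear_combination 108 * hG₁ - 108 * hG₀ + 216 * (r₁ - r₀) * hroot₀ +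
      (72 * (r₁ - r₀) ^ 2 + 6 * (W.b₂ + 12 * r₀) * (r₁ - r₀) - (W.b₂ + 12 * r₀) ^ 2) * hr₁6
  have h432 : v (432 : K) = 1 := by
    rw [show (432 : K) = 6 ^ 3 * 2 by norm_num, map_mul, map_pow, hv6, one_pow, one_mul]
    refine le_antisymm h2 (not_lt.1 fun h => ?_)
    exact (show v ((2 : K) * 3) < 1 from val_mul_lt_left A h (val_ofNat_le A 3)).ne
      (by rw [show (2 : K) * 3 = 6 by norm_num, hv6])
  rwa [← e, map_mul, h432, one_mul] at hother

end FLTAgent.ConductorMatch
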