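import Fermat.Agent.ConductorMatch.CurveSetup
import Fermat.Agent.ConductorMatch.NodeExists
import Fermat.Agent.ECTorsion.TorsionReduction

/-!
# Inertia on `n`-torsion at good and multiplicative places

At a prime `ℓ ∤ n` inertia fixes `E[n]` if the reduction is good (`smul_eq_of_good`) and acts
unipotently if it is multiplicative (`smul_smul_sub_eq`). Used for the local properties of
`tateRep` and in `TateLocal`.
-/

set_option autoImplicit false

noncomputable section

open WeierstrassCurve WeierstrassCurve.Affine WeierstrassCurve.Affine.Point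
open scoped WeierstrassCurve.Affine

namespace FLTAgent.ConductorMatch

open FLTAgent.Density FLTAgent.ECReduction

variable {W : WeierstrassCurve ℤ} {A : ValuationSubring Qbar}

/-- Torsion of order prime to the residue characteristic does not reduce to infinity. -/
theorem val_x_le {n : ℕ} (hn : A.valuation (n : Qbar) = 1) {x y : Qbar}
    {h : ((EQ W)⁄Qbar).Nonsingular x y} (hP : n • (Point.some x y h : Pt W) = 0) :
    A.valuation x ≤ 1 := by
  have key : ∀ (E : WeierstrassCurve Qbar),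
      (W.map (Int.castRingHom A)).map A.subtype = E →
      ∀ (h : E.toAffine.Nonsingular x y), n • (Point.some x y h : E.toAffine.Point) = 0 →
      A.valuation x ≤ 1 := by
    rintro _ rfl h hP
    exact (A.valuation_le_one_iff x).2 (FLTAgent.ECTorsion.Red.mem_of_nsmul_eq_zero hn hP).1
  exact key _ map_subtype_eq h hP

/-- Inertia fixes the torsion with nonsingular reduction. -/
theorem smul_eq_of_inE0 {n : ℕ} (hn : A.valuation (n : Qbar) = 1) {σ : GalQ}
    (hσ : σ ∈ A.inertiaSubgroupIn ℚ) {P : Pt W} (hP : n • P = 0)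
    (hE : InE0 A ((EQ W)⁄Qbar : WeierstrassCurve Qbar) P) : σ • P = P := by
  rcases P with _ | ⟨x, y, h⟩
  · exact smul_zero (A := Pt W) σ
  rcases smul_sub_of_inE0 (h := h) intAt (inertiaElt_of_mem hσ) hE (val_x_le hn hP) with
    e | ⟨x', y', h', e, hx'⟩
  · exact sub_eq_zero.mp e
  · refine absurd (val_x_le hn (h := h') ?_) (not_le.2 hx')
    rw [← e, nsmul_sub, hP, sub_zero]
    exact (map_nsmul (DistribSMul.toAddMonoidHom (Pt W) σ) n _).symm.trans
      (by rw [hP, _root_.map_zero])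

/-- At a good prime not dividing `n` inertia fixes the `n`-torsion. -/
theorem smul_eq_of_good {ℓ n : ℕ} (hℓ : ℓ.Prime) (hgood : W.IsGoodPrimeFor ℓ) (hn : ¬ ℓ ∣ n)
    (hA : A.LiesOverPrime ℓ) {σ : GalQ} (hσ : σ ∈ A.inertiaSubgroupIn ℚ) (z : Tor W n) :
    σ • z = z := by
  have : Fact ℓ.Prime := ⟨hℓ⟩
  refine Subtype.ext (smul_eq_of_inE0 (val_natCast_eq_one hℓ hA hn) hσ (nsmul_coe z) ?_)
  have : (W.map (Int.castRingHom A)).IsElliptic := ⟨by
    rw [WeierstrassCurve.map_Δ]
    exact FLTAgent.Deuring.isUnit_intCast_of_not_dvd hA hgood⟩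
  have key : ∀ (E : WeierstrassCurve Qbar), (W.map (Int.castRingHom A)).map A.subtype = E →
      ∀ P : E.toAffine.Point, InE0 A E P := by
    rintro _ rfl (_ | ⟨x, y, h⟩)
    · exact inE0_zero
    · intro hs
      exact FLTAgent.ECTorsion.Red.not_resSingular (a := ⟨x, (A.valuation_le_one_iff x).1 hs.1⟩)
        (b := ⟨y, (A.valuation_le_one_iff y).1 hs.2.1⟩) h hs
  exact key _ map_subtype_eq _

/-- At a prime of multiplicative reduction not dividing the odd number `n` inertia is unipotent on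
the `n`-torsion. -/
theorem smul_smul_sub_eq {ℓ n : ℕ} (hℓ : ℓ.Prime) (hΔ : (ℓ : ℤ) ∣ W.Δ) (hc4 : ¬ (ℓ : ℤ) ∣ W.c₄)
    (hn : ¬ ℓ ∣ n) (hodd : Odd n) (hA : A.LiesOverPrime ℓ) {σ : GalQ}
    (hσ : σ ∈ A.inertiaSubgroupIn ℚ) (z : Tor W n) : σ • (σ • z - z) = σ • z - z := by
  have : Fact ℓ.Prime := ⟨hℓ⟩
  obtain ⟨nd⟩ : Nonempty (NodeData A ((EQ W)⁄Qbar : WeierstrassCurve Qbar)) := by
    refine nonempty_nodeData two_ne_zero three_ne_zero intAt ?_ ?_
    · rw [baseChange_eq, WeierstrassCurve.map_Δ, eq_intCast]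
      obtain ⟨d, hd⟩ := hΔ
      rw [hd]
      push_cast
      exact val_mul_lt_left A (A.mem_nonunits_iff.1 hA) (val_intCast_le A d)
    · rw [baseChange_eq, WeierstrassCurve.map_c₄, eq_intCast]
      have hu := FLTAgent.Deuring.isUnit_intCast_of_not_dvd hA hc4
      exact (A.valuation_eq_one_iff _).mp hu
  refine Subtype.ext (smul_eq_of_inE0 (val_natCast_eq_one hℓ hA hn) hσ (nsmul_coe (σ • z - z)) ?_)
  exact smul_sub_inE0 intAt nd (inertiaElt_of_mem hσ) hodd (nsmul_coe z)

end FLTAgent.ConductorMatch
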