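import Fermat.Agent.ConductorMatch.Steinberg
import Fermat.Agent.CarayolSquare.Main

/-!
# Conductor–level matching

* `FLTAgent.ConductorMatch.conductorLevel`: the statement S58, from the Steinberg type (S35) and
  the theorem of Carayol (S36).
-/

set_option autoImplicit false

noncomputable section

open WeierstrassCurve

namespace FLTAgent.ConductorMatch

/-- **Conductor–level matching.** -/
theorem conductorLevel (W : WeierstrassCurve ℤ) (hss : W.IsSemistableModel) (N : ℕ)
    (p : ℕ) [Fact p.Prime] (hp2 : p ≠ 2) (hirr : W.ModRepIsIrreducible p)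
    (hp2N : ¬ p ^ 2 ∣ N)
    (hN : W.IsModularModelOfLevel N) (hbad : ∀ ℓ : ℕ, ℓ.Prime → (ℓ : ℤ) ∣ W.Δ → ℓ ∣ N)
    (hN3 : ∀ q : ℕ, q.Prime → ¬ q ^ 3 ∣ N) :
    W.IsModularModelOfLevel W.conductorLevel :=
  conductor_level_of_inputs steinberg CarayolSquare.carayol W hss N p hp2 hirr hp2N hN hbad hN3

end FLTAgent.ConductorMatch
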