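import Fermat.Agent.ConductorMatch.Match
import Fermat.Agent.SemistableHecke.Assembly

/-!
# Newforms are Steinberg at the primes exactly dividing the level

* `FLTAgent.ConductorMatch.steinberg`: the statement S35, in the shape `SteinbergInput`.
-/

set_option autoImplicit false

noncomputable section

namespace FLTAgent.ConductorMatch

/-- **The Steinberg type of newforms.** -/
theorem steinberg : SteinbergInput :=
  fun hg lam _ S O' _ _ _ _ _ _ hlamO' chig hchig iota hlamS hMS =>
    SemistableHecke.exists_galoisRep_steinberg hg lam S O' hlamO' chig hchig iota hlamS hMS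
      (fun N _ _ hp => GaloisAttach.jacobianInputs N hp) GaloisAttach.frobeniusDivisions
      (fun M₀ _ h => SemistableHecke.formsKillTorsion _ M₀ lam h Fact.out)
      fun _ _ _ hq hqp hM hqM₀ => SemistableHecke.frobRelNewPart Fact.out hq hqp hM hqM₀

end FLTAgent.ConductorMatch
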