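import Fermat.Agent.ConductorMatch.InertiaTorsion
import Fermat.Agent.ConductorMatch.GoodTrace
import Fermat.Agent.GaloisAttach.Cyclotomic
import Fermat.Agent.DefRing.MatrixRep
import Mathlib.LinearAlgebra.Matrix.Charpoly.Coeff
import Mathlib.RingTheory.Nilpotent.Lemmas

/-!
# The `p`-adic Tate module as a matrix representation

Compatible bases of `E[p^k]` (`tateBasis`, `levelRep`) give `tateRep : MatRep ℤ_[p]`, with
cyclotomic determinant, trace `a_ℓ` at Frobenius of a good prime, and trivial or unipotent inertia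
at good or multiplicative primes away from `p`. Used by `Attached` and `TateLocal`.
-/

set_option autoImplicit false

noncomputable section

open WeierstrassCurve WeierstrassCurve.Affine WeierstrassCurve.Affine.Point
open scoped WeierstrassCurve.Affine

namespace FLTAgent.ConductorMatch

open FLTAgent.Density FLTAgent.ECTorsion FLTAgent.DefRing FLTAgent.GaloisAttach

variable (p : ℕ) [hp : Fact p.Prime]

/-- A compatible family of residues modulo `p^k` comes from a `p`-adic integer. -/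
theorem exists_padicInt_of_compat (a : ∀ k, ZMod (p ^ k))
    (h : ∀ k, ZMod.castHom (pow_dvd_pow p k.le_succ) (ZMod (p ^ k)) (a (k + 1)) = a k) :
    ∃ z : ℤ_[p], ∀ k, PadicInt.toZModPow k z = a k := by
  have : ∀ k, NeZero (p ^ k) := fun k => ⟨pow_ne_zero _ hp.out.ne_zero⟩
  let f : ℕ → ℤ_[p] := fun k => ((a k).val : ℤ_[p])
  have hf : ∀ k, PadicInt.toZModPow k (f k) = a k := fun k => by
    simp [f]
  have hle : ∀ (m j : ℕ), PadicInt.toZModPow m (f (m + j)) = a m := by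
    intro m j
    induction j generalizing m with
    | zero => exact hf m
    | succ j ih =>
      have e := ih (m + 1)
      rw [show m + 1 + j = m + (j + 1) by omega] at e
      rw [← h m, ← e, ← RingHom.comp_apply, PadicInt.zmod_cast_comp_toZModPow m (m + 1) m.le_succ]
  obtain ⟨z, hz⟩ := IsPrecomplete.prec' (I := IsLocalRing.maximalIdeal ℤ_[p]) (M := ℤ_[p]) f
    fun {m n} hmn => by
    rw [SModEq.sub_mem, smul_eq_mul, Ideal.mul_top, PadicInt.maximalIdeal_eq_span_p,
      Ideal.span_singleton_pow, ← PadicInt.ker_toZModPow, RingHom.mem_ker, map_sub, hf]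
    obtain ⟨j, rfl⟩ := Nat.exists_eq_add_of_le hmn
    rw [hle, sub_self]
  refine ⟨z, fun k => ?_⟩
  have := hz k
  rw [SModEq.sub_mem, smul_eq_mul, Ideal.mul_top, PadicInt.maximalIdeal_eq_span_p,
    Ideal.span_singleton_pow, ← PadicInt.ker_toZModPow, RingHom.mem_ker, map_sub, hf,
    sub_eq_zero] at this
  exact this.symm

variable {p} (W : WeierstrassCurve ℤ)

theorem exists_tateBasis (hΔ : W.Δ ≠ 0) :
    ∃ (P : ℕ → Fin 2 → Pt W) (b : ∀ k, Module.Basis (Fin 2) (ZMod (p ^ k)) (Tor W (p ^ k))),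
      (∀ k i, p • P (k + 1) i = P k i) ∧ ∀ k i, ((b k i : Tor W (p ^ k)) : Pt W) = P k i := by
  have := isElliptic hΔ
  have hpQ : (p : Qbar) ≠ 0 := Nat.cast_ne_zero.mpr hp.out.ne_zero
  obtain ⟨B⟩ := nonempty_basis_torsionBy (EQ W) (K := Qbar) hpQ
  have hs : ∀ x : Pt W, ∃ y, p • y = x := fun x => nsmul_surjective ((EQ W)⁄Qbar) hp.out.ne_zero x
  choose g hg using hs
  let P : ℕ → Fin 2 → Pt W := fun k i => match k with
    | 0 => 0
    | j + 1 => g^[j] (B i : Pt W)
  have hP : ∀ k i, p • P (k + 1) i = P k i := by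
    intro k i
    cases k with
    | zero => exact (mem_torsionBy_iff_nsmul p _).mp (B i).2
    | succ j =>
      show p • g^[j + 1] (B i : Pt W) = g^[j] (B i : Pt W)
      rw [Function.iterate_succ_apply', hg]
  have htor : ∀ k i, p ^ k • P k i = 0 := by
    intro k i
    induction k with
    | zero => rw [pow_zero, one_smul]
    | succ k ih => rw [pow_succ', mul_nsmul, hP, ih]
  have hind : ∀ k (a b : ℤ), a • P k 0 + b • P k 1 = 0 → (p : ℤ) ^ k ∣ a ∧ (p : ℤ) ^ k ∣ b := by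
    intro k
    induction k with
    | zero => exact fun a b _ => by simp
    | succ k ih =>
      intro a b e
      rcases k with _ | k
      · have e' : (a : ZMod p) • B 0 + (b : ZMod p) • B 1 = 0 := by
          rw [Int.cast_smul_eq_zsmul, Int.cast_smul_eq_zsmul]
          exact Subtype.ext e
        have := Fintype.linearIndependent_iff.mp B.linearIndependent ![(a : ZMod p), (b : ZMod p)]
          (by rw [Fin.sum_univ_two]; exact e')
        rw [zero_add, pow_one]
        exact ⟨(ZMod.intCast_zmod_eq_zero_iff_dvd a p).mp (this 0),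
          (ZMod.intCast_zmod_eq_zero_iff_dvd b p).mp (this 1)⟩
      · have e1 : p • (a • P (k + 1 + 1) 0 + b • P (k + 1 + 1) 1) = p • (0 : Pt W) :=
          congrArg (fun T => p • T) e
        have hcomm : ∀ (c : ℤ) (T : Pt W), p • (c • T) = c • (p • T) := fun c T => by
          rw [← natCast_zsmul, ← natCast_zsmul, ← mul_zsmul, ← mul_zsmul, mul_comm]
        rw [nsmul_add, nsmul_zero, hcomm, hcomm, hP, hP] at e1
        obtain ⟨ha, hb⟩ := ih a b e1
        obtain ⟨a', rfl⟩ := (dvd_pow_self (p : ℤ) k.succ_ne_zero).trans ha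
        obtain ⟨b', rfl⟩ := (dvd_pow_self (p : ℤ) k.succ_ne_zero).trans hb
        have e2 : a' • P (k + 1) 0 + b' • P (k + 1) 1 = 0 := by
          rw [← hP (k + 1), ← hP (k + 1), ← natCast_zsmul _ p, ← natCast_zsmul _ p, ← mul_smul,
            ← mul_smul, mul_comm a', mul_comm b']
          exact e
        obtain ⟨ha', hb'⟩ := ih a' b' e2
        rw [pow_succ' _ (k + 1)]
        exact ⟨mul_dvd_mul_left _ ha', mul_dvd_mul_left _ hb'⟩
  have hb : ∀ k, ∃ b : Module.Basis (Fin 2) (ZMod (p ^ k)) (Tor W (p ^ k)),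
      ∀ i, ((b i : Tor W (p ^ k)) : Pt W) = P k i := by
    intro k
    have : NeZero (p ^ k) := ⟨pow_ne_zero _ hp.out.ne_zero⟩
    have hn : ((p ^ k : ℕ) : Qbar) ≠ 0 := Nat.cast_ne_zero.mpr (NeZero.ne _)
    let v : Fin 2 → Tor W (p ^ k) := fun i => ⟨P k i, (mem_torsionBy_iff_nsmul _ _).mpr (htor k i)⟩
    have hli : LinearIndependent (ZMod (p ^ k)) v := by
      rw [Fintype.linearIndependent_iff]
      intro c hc
      obtain ⟨a, ha⟩ := ZMod.intCast_surjective (c 0)
      obtain ⟨b, hb⟩ := ZMod.intCast_surjective (c 1)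
      rw [Fin.sum_univ_two, ← ha, ← hb, Int.cast_smul_eq_zsmul, Int.cast_smul_eq_zsmul] at hc
      obtain ⟨h1, h2⟩ := hind k a b (congrArg Subtype.val hc)
      intro i
      fin_cases i
      · exact ha ▸ (ZMod.intCast_zmod_eq_zero_iff_dvd a _).mpr (by exact_mod_cast h1)
      · exact hb ▸ (ZMod.intCast_zmod_eq_zero_iff_dvd b _).mpr (by exact_mod_cast h2)
    have := finite_torsionBy (EQ W) (K := Qbar) hn
    have hspan : ⊤ ≤ Submodule.span (ZMod (p ^ k)) (Set.range v) := by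
      rw [← Fintype.range_linearCombination]
      exact fun z _ => ((linearIndependent_iff_injective_fintypeLinearCombination.mp
        hli).bijective_of_nat_card_le (by rw [card_torsionBy (EQ W) hn]; simp)).2 z
    exact ⟨Module.Basis.mk hli hspan, fun i => by rw [Module.Basis.mk_apply]⟩
  choose b hb using hb
  exact ⟨P, b, hP, hb⟩

variable (p) in
/-- A compatible family of bases of the `p`-power torsion. -/
def tateBasis (hΔ : W.Δ ≠ 0) (k : ℕ) : Module.Basis (Fin 2) (ZMod (p ^ k)) (Tor W (p ^ k)) :=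
  (exists_tateBasis (p := p) W hΔ).choose_spec.choose k

theorem nsmul_tateBasis (hΔ : W.Δ ≠ 0) (k : ℕ) (i : Fin 2) :
    p • ((tateBasis p W hΔ (k + 1) i : Tor W (p ^ (k + 1))) : Pt W) =
      (tateBasis p W hΔ k i : Tor W (p ^ k)) := by
  obtain ⟨h1, h2⟩ := (exists_tateBasis (p := p) W hΔ).choose_spec.choose_spec
  rw [tateBasis, tateBasis, h2, h2, h1]

variable (p) in
/-- The matrices of the action on `E[p^k]`. -/
def levelRep (hΔ : W.Δ ≠ 0) (k : ℕ) : GalQ →* Matrix (Fin 2) (Fin 2) (ZMod (p ^ k)) :=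
  (LinearMap.toMatrixAlgEquiv (tateBasis p W hΔ k)).toMonoidHom.comp
    (galoisRepModuleEnd ℚ (EQ W) (p ^ k))

theorem levelRep_apply (hΔ : W.Δ ≠ 0) (k : ℕ) (σ : GalQ) :
    levelRep p W hΔ k σ = LinearMap.toMatrix (tateBasis p W hΔ k) (tateBasis p W hΔ k)
      (galoisRepModuleEnd ℚ (EQ W) (p ^ k) σ) := rfl

theorem castHom_levelRep (hΔ : W.Δ ≠ 0) (k : ℕ) (σ : GalQ) (i j : Fin 2) :
    ZMod.castHom (pow_dvd_pow p k.le_succ) (ZMod (p ^ k)) (levelRep p W hΔ (k + 1) σ i j) =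
      levelRep p W hΔ k σ i j := by
  set b := tateBasis p W hΔ k
  set b' := tateBasis p W hΔ (k + 1)
  choose c hc using fun i => ZMod.intCast_surjective (b'.repr (σ • b' j) i)
  have h1 : σ • (b' j : Pt W) = ∑ i, c i • (b' i : Pt W) := by
    have h := congrArg (Submodule.subtype _) (b'.sum_repr (σ • b' j))
    simp only [← hc, Int.cast_smul_eq_zsmul, map_sum, map_zsmul, Submodule.coe_subtype,
      coe_smul] at h
    exact h.symm
  have h2 : σ • b j = ∑ i, (c i : ZMod (p ^ k)) • b i := by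
    refine Subtype.ext ?_
    simp only [Int.cast_smul_eq_zsmul, Submodule.coe_sum, Submodule.coe_smul]
    rw [coe_smul, ← nsmul_tateBasis W hΔ k j]
    refine ((map_nsmul (DistribSMul.toAddMonoidHom (Pt W) σ) p _).trans
      (congrArg (p • ·) h1)).trans ?_
    rw [Finset.smul_sum]
    exact Finset.sum_congr rfl fun i _ => by rw [← nsmul_tateBasis W hΔ k i, smul_comm]
  have h3 : b.repr (σ • b j) i = (c i : ZMod (p ^ k)) := by
    rw [h2]; exact b.repr_sum_self _ ▸ rfl
  rw [levelRep_apply, levelRep_apply, LinearMap.toMatrix_apply, LinearMap.toMatrix_apply,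
    galoisRepModuleEnd_apply, galoisRepModuleEnd_apply, h3, ← hc, map_intCast]

variable (p) in
/-- The matrix of an element of the Galois group on the Tate module. -/
def tateMat (hΔ : W.Δ ≠ 0) (σ : GalQ) : Matrix (Fin 2) (Fin 2) ℤ_[p] := fun i j =>
  (exists_padicInt_of_compat p (fun k => levelRep p W hΔ k σ i j)
    fun k => castHom_levelRep W hΔ k σ i j).choose

theorem map_tateMat (hΔ : W.Δ ≠ 0) (k : ℕ) (σ : GalQ) :
    (tateMat p W hΔ σ).map (PadicInt.toZModPow k) = levelRep p W hΔ k σ := by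
  ext i j
  exact (exists_padicInt_of_compat p (fun k => levelRep p W hΔ k σ i j)
    fun k => castHom_levelRep W hΔ k σ i j).choose_spec k

theorem matrix_ext_toZModPow {M N : Matrix (Fin 2) (Fin 2) ℤ_[p]}
    (h : ∀ k, M.map (PadicInt.toZModPow k) = N.map (PadicInt.toZModPow k)) : M = N := by
  ext i j
  exact PadicInt.ext_of_toZModPow.mp fun k => congrFun (congrFun (h k) i) j

variable (p) in
/-- The representation on the Tate module. -/
def tateRep (hΔ : W.Δ ≠ 0) : MatRep ℤ_[p] where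
  toFun := tateMat p W hΔ
  map_one' := matrix_ext_toZModPow fun k => by
    rw [map_tateMat, map_one, Matrix.map_one _ (_root_.map_zero _) (_root_.map_one _)]
  map_mul' σ τ := matrix_ext_toZModPow fun k => by
    rw [Matrix.map_mul, map_tateMat, map_tateMat, map_tateMat, map_mul]

theorem map_tateRep (hΔ : W.Δ ≠ 0) (k : ℕ) (σ : GalQ) :
    (tateRep p W hΔ σ).map (PadicInt.toZModPow k) = levelRep p W hΔ k σ := map_tateMat W hΔ k σ

theorem matCont_tateRep (hΔ : W.Δ ≠ 0) : MatCont (tateRep p W hΔ) := by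
  intro n
  have := isElliptic hΔ
  have : Finite (Tor W (p ^ n)) :=
    finite_torsionBy (EQ W) (Nat.cast_ne_zero.mpr (pow_ne_zero _ hp.out.ne_zero))
  obtain ⟨E, hE, h⟩ := exists_fixingSubgroup_smul_eq (S := ℚ) (K := Qbar) (EQ W) (n := p ^ n)
  refine ⟨E, hE, fun σ hσ i j => ?_⟩
  have h1 : galoisRepModuleEnd ℚ (EQ W) (p ^ n) σ = 1 := LinearMap.ext fun z =>
    h σ ((IntermediateField.mem_fixingSubgroup_iff _ _).mpr hσ) z
  rw [PadicInt.maximalIdeal_eq_span_p, Ideal.span_singleton_pow, ← PadicInt.ker_toZModPow,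
    RingHom.mem_ker, ← Matrix.map_apply (f := PadicInt.toZModPow n),
    Matrix.map_sub _ (map_sub _), map_tateRep, levelRep_apply, h1, LinearMap.toMatrix_one,
    Matrix.map_one _ (_root_.map_zero _) (_root_.map_one _), sub_self, Matrix.zero_apply]

theorem toZModPow_det_tateRep (hΔ : W.Δ ≠ 0) (k : ℕ) (σ : GalQ) :
    PadicInt.toZModPow k (tateRep p W hΔ σ).det =
      LinearMap.det (galoisRepModuleEnd ℚ (EQ W) (p ^ k) σ) := by
  rw [RingHom.map_det, RingHom.mapMatrix_apply, map_tateRep, levelRep_apply, LinearMap.det_toMatrix]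

theorem toZModPow_trace_tateRep (hΔ : W.Δ ≠ 0) (k : ℕ) (σ : GalQ) :
    PadicInt.toZModPow k (tateRep p W hΔ σ).trace =
      LinearMap.trace (ZMod (p ^ k)) _ (galoisRepModuleEnd ℚ (EQ W) (p ^ k) σ) := by
  rw [LinearMap.trace_eq_matrix_trace _ (tateBasis p W hΔ k), ← levelRep_apply,
    ← map_tateRep, Matrix.trace, map_sum]
  rfl

/-- The determinant is the cyclotomic character. -/
theorem det_tateRep (hΔ : W.Δ ≠ 0) (σ : GalQ) : (tateRep p W hΔ σ).det = cyc p σ := by
  have := isElliptic hΔ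
  refine PadicInt.ext_of_toZModPow.mp fun k => ?_
  have : NeZero (p ^ k) := ⟨pow_ne_zero _ hp.out.ne_zero⟩
  rw [toZModPow_det_tateRep, toZModPow_cyc_eq p σ (m := (LinearMap.det
    (galoisRepModuleEnd ℚ (EQ W) (p ^ k) σ)).val) fun ζ hζ => algEquiv_apply_eq_pow_det (EQ W)
      (Nat.cast_ne_zero.mpr (NeZero.ne _)) (tateBasis p W hΔ k) σ hζ, ZMod.natCast_zmod_val]

/-- The trace of a Frobenius at a good prime is `a_ℓ`. -/
theorem trace_tateRep_frobenius (hΔ : W.Δ ≠ 0) {ℓ : ℕ} (hℓ : ℓ.Prime)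
    (hgood : W.IsGoodPrimeFor ℓ) (hℓp : ℓ ≠ p) {A : ValuationSubring Qbar}
    (hA : A.LiesOverPrime ℓ) {σ : GalQ} (hσ : A.IsFrobeniusAt σ ℓ) :
    (tateRep p W hΔ σ).trace = (W.apOfModel ℓ : ℤ_[p]) := by
  refine PadicInt.ext_of_toZModPow.mp fun k => ?_
  rw [toZModPow_trace_tateRep, (trace_det_frobenius hℓ hgood hℓp k hA hσ).1, map_intCast]

/-- Good primes are unramified. -/
theorem tateRep_eq_one_of_good (hΔ : W.Δ ≠ 0) {ℓ : ℕ} (hℓ : ℓ.Prime)
    (hgood : W.IsGoodPrimeFor ℓ) (hℓp : ℓ ≠ p) {A : ValuationSubring Qbar}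
    (hA : A.LiesOverPrime ℓ) {σ : GalQ} (hσ : σ ∈ A.inertiaSubgroupIn ℚ) :
    tateRep p W hΔ σ = 1 := by
  refine matrix_ext_toZModPow fun k => ?_
  have hdvd : ¬ ℓ ∣ p ^ k := fun h =>
    hℓp ((Nat.prime_dvd_prime_iff_eq hℓ hp.out).mp (hℓ.dvd_of_dvd_pow h))
  have h1 : galoisRepModuleEnd ℚ (EQ W) (p ^ k) σ = 1 := LinearMap.ext fun z =>
    smul_eq_of_good hℓ hgood hdvd hA hσ z
  rw [map_tateRep, levelRep_apply, h1, LinearMap.toMatrix_one,
    Matrix.map_one _ (_root_.map_zero _) (_root_.map_one _)]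

/-- At a multiplicative prime `ℓ ≠ p` inertia is unipotent. -/
theorem sq_tateRep_sub_one (hp2 : p ≠ 2) (hΔ : W.Δ ≠ 0) {ℓ : ℕ} (hℓ : ℓ.Prime)
    (hdvd : (ℓ : ℤ) ∣ W.Δ) (hc4 : ¬ (ℓ : ℤ) ∣ W.c₄) (hℓp : ℓ ≠ p) {A : ValuationSubring Qbar}
    (hA : A.LiesOverPrime ℓ) {σ : GalQ} (hσ : σ ∈ A.inertiaSubgroupIn ℚ) :
    (tateRep p W hΔ σ - 1) ^ 2 = 0 := by
  refine matrix_ext_toZModPow fun k => ?_
  have hn : ¬ ℓ ∣ p ^ k := fun h =>
    hℓp ((Nat.prime_dvd_prime_iff_eq hℓ hp.out).mp (hℓ.dvd_of_dvd_pow h))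
  have h1 : (galoisRepModuleEnd ℚ (EQ W) (p ^ k) σ - 1) ^ 2 = 0 := LinearMap.ext fun z => by
    rw [sq, Module.End.mul_apply, LinearMap.sub_apply, LinearMap.sub_apply, Module.End.one_apply,
      Module.End.one_apply, galoisRepModuleEnd_apply, galoisRepModuleEnd_apply,
      smul_smul_sub_eq hℓ hdvd hc4 hn ((hp.out.odd_of_ne_two hp2).pow) hA hσ z, sub_self]
    rfl
  rw [← RingHom.mapMatrix_apply, map_pow, map_sub, _root_.map_one, RingHom.mapMatrix_apply,
    map_tateRep, levelRep_apply]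
  have h2 := congrArg (LinearMap.toMatrixAlgEquiv (tateBasis p W hΔ k)) h1
  rw [map_pow, map_sub, _root_.map_one, _root_.map_zero] at h2
  rw [Matrix.map_zero _ (_root_.map_zero _)]
  exact h2

/-- At a multiplicative prime `ℓ ≠ p` inertia has trace `2`. -/
theorem trace_tateRep_inertia (hp2 : p ≠ 2) (hΔ : W.Δ ≠ 0) {ℓ : ℕ} (hℓ : ℓ.Prime)
    (hdvd : (ℓ : ℤ) ∣ W.Δ) (hc4 : ¬ (ℓ : ℤ) ∣ W.c₄) (hℓp : ℓ ≠ p) {A : ValuationSubring Qbar}
    (hA : A.LiesOverPrime ℓ) {σ : GalQ} (hσ : σ ∈ A.inertiaSubgroupIn ℚ) :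
    (tateRep p W hΔ σ).trace = 2 := by
  have hnil : IsNilpotent (tateRep p W hΔ σ - 1).trace :=
    Matrix.isNilpotent_trace_of_isNilpotent ⟨2, sq_tateRep_sub_one W hp2 hΔ hℓ hdvd hc4 hℓp hA hσ⟩
  have := hnil.eq_zero
  rwa [Matrix.trace_sub, Matrix.trace_one, Fintype.card_fin, sub_eq_zero, Nat.cast_ofNat] at this

end FLTAgent.ConductorMatch
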